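import Fermat.Agent.Ribet.H552.ASBridge
import Fermat.Agent.Ribet.H552.ASConst
import Fermat.Agent.A2.Alg.H729.CompVal
import Fermat.Agent.A2.H552.ConstLeaf
import Mathlib.FieldTheory.KummerExtension

/-!
# RIBET wall-p, piece W-ALGP (I5), leaf **GLUE-p** (helper552)

`glueP : H495.AlgP.GluePLeaf` — statement VERBATIM that of `Ribet/H495/AlgPSpec.lean`
(sub-architect helper495): a Kummer class `v` of prime order `p` (`p` = residue characteristic,
`ζ ∈ R` a primitive `p`-th root of unity, `λ = ζ - 1`) which is locally factored at depth `λ^p w`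
at every closed point of the special fibre of both charts is a `p`-th power.

Proof (route B-p).  Suppose `v` is not a `p`-th power: `L = F[X]/(X^p - v)` is a field, cyclic
Galois over `F`.
* `hRL` : `R` is integrally closed in `L` (`as_isIntegral_mem_range`: the valuation ring
  `compVal = (Bf)_{p₁}` is unramified in `L` because `v ∈ 1 + λ^p w (Bf)_{p₁}`, `R` henselian with
  algebraically closed residue field).
* `as_ss` (field form, on `A2.H729.generic_idempotent_trivial` for the canonical Gauss ring of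
  `L`): the Artin–Schreier coordinate `Y = (y - 1)/λ` of the root `y` is `≡ g_k mod w O_L` for
  one `k` globally, so `ζ^{-k} y` is fixed by `Gal(L/F)`, i.e. `v` is a `p`-th power in `F`.
Neither `p ≠ 2`, nor `p ∈ 𝔪_R`, nor `DivisibleDiv` is used.
-/

set_option autoImplicit false
set_option linter.unusedSectionVars false
set_option linter.unusedVariables false

namespace Fermat.Agent.Ribet.H552

open Polynomial Fermat.Agent.S18.H138 Fermat.Agent.A2.H729
open Fermat.Agent.A2 Fermat.Agent.A2.Alg Fermat.Agent.Ribet.H495.AlgP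

section Adapter

variable {R : Type*} [CommRing R] [IsDomain R] {F : Type*} [Field F] [Algebra R F]

theorem span_le_of_mem {B : Subalgebra R F} {n : Ideal B} {w : R}
    (hwn : algebraMap R B w ∈ n) (r : R) : Ideal.span {algebraMap R B (r * w)} ≤ n := by
  rw [Ideal.span_singleton_le_iff_mem, map_mul]
  exact n.mul_mem_left _ hwn

theorem ssChart_mem₁ {w : R} {B : Subalgebra R F} (c : SSChart w B) :
    algebraMap R B w ∈ c.p₁ := by
  have : algebraMap R B w ∈ c.p₁ ⊓ c.p₂ := by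
    rw [c.inf_eq]; exact Ideal.mem_span_singleton_self _
  exact this.1

theorem ssChart_mem₂ {w : R} {B : Subalgebra R F} (c : SSChart w B) :
    algebraMap R B w ∈ c.p₂ := by
  have : algebraMap R B w ∈ c.p₁ ⊓ c.p₂ := by
    rw [c.inf_eq]; exact Ideal.mem_span_singleton_self _
  exact this.2

/-- `v ∈ 1 + λ^p w B_q` for a prime `q ∋ w` on which the local correction factors are `≡ 1`. -/
theorem locOneR_of_locallyFactoredP (hinj : Function.Injective (algebraMap R F)) {w : R}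
    {B : Subalgebra R F} (c : SSChart w B) {p : ℕ} (hp : p.Prime) {ζ : R}
    (hζ : IsPrimitiveRoot ζ p) {v : F} (hf : LocallyFactoredP B c p (ζ - 1) v)
    (q : Ideal B) (hq : q.IsPrime) (hwq : algebraMap R B w ∈ q)
    (hsel : ∀ h : F, LocOneR B c.p₁ ((ζ - 1) * w) h → LocOneR B c.p₂ ((ζ - 1) * w) h →
      LocOneR B q ((ζ - 1) * w) h) :
    LocOneR B q ((ζ - 1) ^ p * w) v := by
  obtain ⟨𝔪, h𝔪, hq𝔪⟩ := Ideal.exists_le_maximal q hq.ne_top
  obtain ⟨h, hh0, hloc, h1, h2⟩ := hf 𝔪 h𝔪 (hq𝔪 hwq)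
  have hA : LocOneR B q ((ζ - 1) ^ p * w) (v * h ^ p) := locOne_of_le hq𝔪 hloc
  have hB : LocOneR B q ((ζ - 1) ^ p * w) (h ^ p) :=
    locOneR_pow_prime hinj hq hp hζ w (hsel h h1 h2)
  have hB' : LocOneR B q ((ζ - 1) ^ p * w) (h ^ p)⁻¹ := locOne_inv (span_le_of_mem hwq _) hB
  have hC : LocOneR B q ((ζ - 1) ^ p * w) (v * h ^ p * (h ^ p)⁻¹) := locOne_mul hq hA hB'
  rwa [mul_assoc, mul_inv_cancel₀ (pow_ne_zero _ hh0), mul_one] at hC

/-- The wild local factorisations in Gauss-ring form (input of `as_ss`). -/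
theorem wildLF_of_locallyFactoredP {w : R} (hw : Prime w) {x : F} (hx : Transcendental R x)
    (c : SSChart w (chart R ({x} : Set F))) (hc : Incomparable c) {p : ℕ} {ζ : R} {v : F}
    (hf : LocallyFactoredP (chart R ({x} : Set F)) c p (ζ - 1) v) :
    ∀ 𝔫₀ : Ideal (chart R ({x} : Set F)), 𝔫₀.IsMaximal →
      algebraMap R (chart R ({x} : Set F)) w ∈ 𝔫₀ →
      ∃ s : chart R ({x} : Set F), s ∉ 𝔫₀ ∧ ∃ h ε : F,
        (∃ t ∈ gaussO hw x, h - 1 = algebraMap R F ((ζ - 1) * w) * t) ∧ v = ε * h ^ p ∧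
        ∃ c' ∈ chart R ({x} : Set F),
          (s : F) * (ε - 1) = algebraMap R F ((ζ - 1) ^ p * w) * c' := by
  intro 𝔫₀ h𝔫 hw𝔫
  obtain ⟨h, hh0, ⟨a, b, hb, hab, e⟩, h1, h2⟩ := hf 𝔫₀ h𝔫 hw𝔫
  have h1' : LocOneR (chart R ({x} : Set F)) c.p₁ ((ζ - 1) * w) h⁻¹ :=
    locOne_inv (span_le_of_mem (ssChart_mem₁ c) (ζ - 1)) h1
  have h2' : LocOneR (chart R ({x} : Set F)) c.p₂ ((ζ - 1) * w) h⁻¹ :=
    locOne_inv (span_le_of_mem (ssChart_mem₂ c) (ζ - 1)) h2
  obtain ⟨t, ht, htt⟩ := exists_gaussO_of_locOneR hw hx c.prime₁ c.prime₂ c.inf_eq hc.1 hc.2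
    ((ζ - 1) * w) h1' h2'
  obtain ⟨c', hc'⟩ := Ideal.mem_span_singleton'.1 hab
  refine ⟨b, hb, h⁻¹, v * h ^ p, ⟨t, ht, htt⟩, ?_, c', c'.2, ?_⟩
  · rw [inv_pow, mul_assoc, mul_inv_cancel₀ (pow_ne_zero _ hh0), mul_one]
  · have hc'F : (c' : F) * algebraMap R F ((ζ - 1) ^ p * w) = (a : F) - (b : F) :=
      congrArg (fun t : chart R ({x} : Set F) => (t : F)) hc'
    linear_combination e - hc'F

/-- `v ∈ 1 + λ^p w · gaussO`. -/
theorem exists_gaussO_of_locallyFactoredP (hinj : Function.Injective (algebraMap R F)) {w : R}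
    (hw : Prime w) {x : F} (hx : Transcendental R x)
    (c : SSChart w (chart R ({x} : Set F))) (hc : Incomparable c) {p : ℕ} (hp : p.Prime)
    {ζ : R} (hζ : IsPrimitiveRoot ζ p) {v : F}
    (hf : LocallyFactoredP (chart R ({x} : Set F)) c p (ζ - 1) v) :
    ∃ t ∈ gaussO hw x, v - 1 = algebraMap R F ((ζ - 1) ^ p * w) * t :=
  exists_gaussO_of_locOneR hw hx c.prime₁ c.prime₂ c.inf_eq hc.1 hc.2 _
    (locOneR_of_locallyFactoredP hinj c hp hζ hf c.p₁ c.prime₁ (ssChart_mem₁ c)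
      (fun _ h1 _ => h1))
    (locOneR_of_locallyFactoredP hinj c hp hζ hf c.p₂ c.prime₂ (ssChart_mem₂ c)
      (fun _ _ h2 => h2))

end Adapter

section Final

variable {R E F : Type*} [CommRing R] [IsDomain R] [IsDiscreteValuationRing R]
  [HenselianLocalRing R] [IsAlgClosed (IsLocalRing.ResidueField R)]
  [Field E] [CharZero E] [Algebra R E] [IsFractionRing R E]
  [Field F] [Algebra E F] [Algebra R F] [IsScalarTower R E F]

/-- **GLUE-p**, universe-polymorphic form, without the unused hypotheses. -/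
theorem glueP_core (p : ℕ) (hp : p.Prime) (ζ : R) (hζ : IsPrimitiveRoot ζ p)
    (w : R) (x : F) (Bf Bi : Subalgebra R F)
    (hBf : ChartCtx E w x Bf) (hBi : ChartCtx E w x⁻¹ Bi)
    (cf : SSChart w Bf) (ci : SSChart w Bi) (hcf : Incomparable cf) (hci : Incomparable ci)
    (v : F) (hv : v ≠ 0)
    (hf : LocallyFactoredP Bf cf p (ζ - 1) v) (hi : LocallyFactoredP Bi ci p (ζ - 1) v) :
    ∃ y : F, y ≠ 0 ∧ v = y ^ p := by
  classical
  obtain rfl := H34.chart_eq x Bf hBf.hB
  obtain rfl := H34.chart_eq x⁻¹ Bi hBi.hB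
  have : CharZero F := H34.charZero_of_field (E := E)
  have := H34.finiteDimensional_baseField (R := R) x hBf.hfin
  have hinjR : Function.Injective (algebraMap R F) := H34.algebraMap_RF_injective E
  have hx : Transcendental R x := H34.transcendental_of_field hBf.hx
  have hx0 : x ≠ 0 := ne_zero_of_transcendental hx
  have hxi : Transcendental R x⁻¹ := transcendental_inv hx
  have hw : Prime w := hBf.hw.prime
  have hw0 : algebraMap R F w ≠ 0 := fun h => hw.ne_zero (hinjR (by rw [h, map_zero]))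
  by_contra hcon
  have hnp : ∀ b : F, b ^ p ≠ v := by
    intro b hb
    apply hcon
    refine ⟨b, ?_, hb.symm⟩
    rintro rfl
    rw [zero_pow hp.ne_zero] at hb
    exact hv hb.symm
  have hirr : Irreducible (X ^ p - C v) := X_pow_sub_C_irreducible_of_prime hp hnp
  have hfact := Fact.mk hirr
  -- the cover `L = F[X]/(X^p - v)`
  have hζF : IsPrimitiveRoot (algebraMap R F ζ) p := hζ.map_of_injective hinjR
  have hprim : (primitiveRoots p F).Nonempty := ⟨_, (mem_primitiveRoots hp.pos).2 hζF⟩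
  have hsplit := isSplittingField_AdjoinRoot_X_pow_sub_C hprim hirr
  have hgal : IsGalois F (AdjoinRoot (X ^ p - C v)) :=
    isGalois_of_isSplittingField_X_pow_sub_C hprim hirr _
  have hfd : FiniteDimensional F (AdjoinRoot (X ^ p - C v)) :=
    IsSplittingField.finiteDimensional _ (X ^ p - C v)
  have hι : Function.Injective (algebraMap F (AdjoinRoot (X ^ p - C v))) :=
    (algebraMap F _).injective
  have hinjL : Function.Injective (algebraMap R (AdjoinRoot (X ^ p - C v))) := by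
    rw [IsScalarTower.algebraMap_eq R F]
    exact hι.comp hinjR
  have : CharZero (AdjoinRoot (X ^ p - C v)) := charZero_of_injective_algebraMap hι
  have hxL : Transcendental R (algebraMap F (AdjoinRoot (X ^ p - C v)) x) :=
    (transcendental_algebraMap_iff hι).2 hx
  have hfdL := Fermat.Agent.A2.H552.finiteDimensional_baseField_cover (R := R) (E := E)
    (L := AdjoinRoot (X ^ p - C v)) x hBf.hfin
  -- the root
  have hyu : (AdjoinRoot.root (X ^ p - C v)) ^ p = algebraMap F (AdjoinRoot (X ^ p - C v)) v := by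
    have h := AdjoinRoot.eval₂_root (X ^ p - C v : F[X])
    rw [eval₂_sub, eval₂_pow, eval₂_X, eval₂_C, sub_eq_zero] at h
    exact h
  -- Gauss-ring data on the base
  have hgen := exists_gaussO_of_locallyFactoredP hinjR hw hx cf hcf hp hζ hf
  have hLF_fin := wildLF_of_locallyFactoredP hw hx cf hcf hf
  have hLF_inf := wildLF_of_locallyFactoredP hw hxi ci hci hi
  rw [gaussO_inv hw hx0] at hLF_inf
  -- no new constants
  have hRL : ∀ y : AdjoinRoot (X ^ p - C v), IsIntegral R y →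
      y ∈ Set.range (algebraMap R (AdjoinRoot (X ^ p - C v))) := by
    obtain ⟨hN, -, hFr⟩ := H34.chart_instances' w x (chart R ({x} : Set F)) hBf
    have := hN
    have := hFr
    obtain ⟨a, b, hb, hab, e⟩ := locOneR_of_locallyFactoredP hinjR cf hp hζ hf cf.p₁ cf.prime₁
      (ssChart_mem₁ cf) (fun _ h1 _ => h1)
    obtain ⟨c', hc'⟩ := Ideal.mem_span_singleton'.1 hab
    have hb0 : (b : F) ≠ 0 := Alg.H729.coe_ne_zero_of_not_mem hb
    have hc'F : (c' : F) * algebraMap R F ((ζ - 1) ^ p * w) = (a : F) - (b : F) :=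
      congrArg (fun t : chart R ({x} : Set F) => (t : F)) hc'
    have ht : (c' : F) * (b : F)⁻¹ ∈ Alg.H729.compVal w (chart R ({x} : Set F)) cf.p₁ cf.p₂
        cf.prime₁ cf.inf_eq hcf.2 hw0 := by
      refine ⟨c', b, hb, ?_⟩
      rw [mul_assoc, inv_mul_cancel₀ hb0, mul_one]
    have hvt : v = 1 + algebraMap R F ((ζ - 1) ^ p * w) * ((c' : F) * (b : F)⁻¹) := by
      have e1 : (b : F) * (b : F)⁻¹ = 1 := mul_inv_cancel₀ hb0
      linear_combination (b : F)⁻¹ * e - (b : F)⁻¹ * hc'F - (v - 1) * e1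
    intro y hy
    exact as_isIntegral_mem_range E w hBf.hw
      (Alg.H729.compVal w (chart R ({x} : Set F)) cf.p₁ cf.p₂ cf.prime₁ cf.inf_eq hcf.2 hw0)
      (Alg.H729.algebraMap_mem_compVal w _ cf.p₁ cf.p₂ cf.prime₁ cf.inf_eq hcf.2 hw0)
      (Alg.H729.inv_not_mem_compVal w _ cf.p₁ cf.p₂ cf.prime₁ cf.inf_eq hcf.2 hw0)
      (Alg.H729.mul_inv_mem_compVal w _ cf.p₁ cf.p₂ cf.prime₁ cf.inf_eq hcf.2 hw0)
      (Alg.H729.exists_pow_mul_mem_compVal w _ cf.p₁ cf.p₂ cf.prime₁ cf.inf_eq hcf.2 hw0)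
      p hp ζ hζ _ ht (AdjoinRoot.root (X ^ p - C v)) (by rw [hyu, ← hvt])
      (fun b => by rw [AdjoinRoot.adjoinRoot_eq_top]; exact Algebra.mem_top) y hy
  obtain ⟨y₀, hy₀⟩ := as_ss (F₀ := F) (F := AdjoinRoot (X ^ p - C v)) hinjL hRL hxL hw hp hζ
    hyu hgen hLF_fin hLF_inf
  exact hnp y₀ hy₀

end Final

/-- **GLUE-p** : the leaf `GluePLeaf` of `Ribet/H495/AlgPSpec.lean`, VERBATIM. -/
theorem glueP : GluePLeaf := by
  intro R E F _ _ _ _ _ _ _ _ _ _ _ _ _ p hp _ _ ζ hζ w x Bf Bi hBf hBi cf ci hcf hci v hv _ hf hi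
  exact glueP_core p hp ζ hζ w x Bf Bi hBf hBi cf ci hcf hci v hv hf hi

end Fermat.Agent.Ribet.H552
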