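import Fermat.Agent.A2.H552.KummerUnram
import Mathlib.Data.Int.GCD

/-!
# RIBET wall-p, leaf W-ALGP / GLUE-p (helper552): wild cyclic covers `y ^ p = 1 + λ ^ p w t` are
unramified

`K ⊆ Ω` fields, `V` a valuation subring of `K` with uniformiser `w` (`w` generates the non-units
of `V` and `K = V[1/w]`), `ζ ∈ K` a primitive `p`-th root of unity (`p` prime, ANY residue
characteristic, in the application the residue characteristic is `p`), `λ = ζ - 1`,
`Ω = K[z]` with `z ^ p = 1 + λ ^ p w t`, `t ∈ V`.  Let `W` be ANY valuation subring of `Ω`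
containing `V` in which `w` is not a unit.  Then

* `z = ζ ^ j (1 + λ w s)` with `s ∈ W`;
* `W = V[s]`, `V[s] = V + w V[s]`;
* hence `𝔪_W = w W` (`e = 1`) and `W = V + w W` (`f = 1`): `as_unramified`.

This is the Artin–Schreier form of `A2.H552.kummer_unramified`: with `z = ζ ^ j (1 + λ Y)` the
equation becomes `Y ^ p - Y ≡ w t` modulo `λ`.  No Galois theory, no étale/Dedekind API, no
completeness.  `unramified_of_adjoin_decomp` is the common abstract core.
-/

set_option autoImplicit false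

namespace Fermat.Agent.Ribet.H552

open Polynomial
open Fermat.Agent.A2.H552 (valuation_lt_one_of_inv_notMem eq_one_of_pow_eq_one₀)

section Abstract

variable {K Ω : Type*} [Field K] [Field Ω] [Algebra K Ω]

/-- **Abstract core.**  `W ⊇ V` valuation subrings, `w` a uniformiser of `V`, `K = V[1/w]`,
`w` a non-unit of `W`; `s ∈ W` with `s ∈ V + w V[s]` and `Ω = K[z]`, `z ∈ V[s]`.  Then
`W = V[s]` is unramified over `V` with trivial residue extension. -/
theorem unramified_of_adjoin_decomp (V : ValuationSubring K) (W : ValuationSubring Ω)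
    (hVW : ∀ a ∈ V, algebraMap K Ω a ∈ W)
    (w : K) (hwV : w ∈ V) (hw0 : w ≠ 0) (hwW : (algebraMap K Ω w)⁻¹ ∉ W)
    (hVgen : ∀ a ∈ V, a⁻¹ ∉ V → a * w⁻¹ ∈ V)
    (hdisc : ∀ c : K, ∃ k : ℕ, w ^ k * c ∈ V)
    (s : Ω) (hsW : s ∈ W)
    (hsdec : ∃ a₀ ∈ V, ∃ a' ∈ Subring.closure (algebraMap K Ω '' (V : Set K) ∪ {s}),
      s = algebraMap K Ω a₀ + algebraMap K Ω w * a')
    (z : Ω) (hzA : z ∈ Subring.closure (algebraMap K Ω '' (V : Set K) ∪ {s}))
    (hgen : ∀ b : Ω, b ∈ Algebra.adjoin K ({z} : Set Ω)) :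
    (∀ b ∈ W, b⁻¹ ∉ W → b * (algebraMap K Ω w)⁻¹ ∈ W) ∧
    (∀ b ∈ W, ∃ a ∈ V, (b - algebraMap K Ω a) * (algebraMap K Ω w)⁻¹ ∈ W) := by
  classical
  set φ := algebraMap K Ω with hφ
  set v := W.valuation with hv
  have hφinj : Function.Injective φ := (algebraMap K Ω).injective
  have hφw0 : φ w ≠ 0 := fun h => hw0 (hφinj (by rw [h, map_zero]))
  have hvV : ∀ a ∈ V, v (φ a) ≤ 1 := fun a ha => (W.valuation_le_one_iff _).mpr (hVW a ha)
  have hvw : v (φ w) < 1 := valuation_lt_one_of_inv_notMem W hwW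
  have hunitV : ∀ a ∈ V, a⁻¹ ∈ V → a ≠ 0 → v (φ a) = 1 := by
    intro a ha hai ha0
    have h1 := hvV a ha
    have h2 := hvV _ hai
    rw [map_inv₀, map_inv₀] at h2
    have hpos : 0 < v (φ a) := by
      rw [pos_iff_ne_zero]
      exact (Valuation.ne_zero_iff _).mpr (fun h => ha0 (hφinj (by rw [h, map_zero])))
    exact le_antisymm h1 ((inv_le_one₀ hpos).mp h2)
  -- the subring `A = V[s]`
  set A : Subring Ω := Subring.closure (φ '' (V : Set K) ∪ {s}) with hA
  have hVA : ∀ a ∈ V, φ a ∈ A := fun a ha =>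
    Subring.subset_closure (Or.inl ⟨a, ha, rfl⟩)
  have hwA : φ w ∈ A := hVA w hwV
  have hAW : ∀ a ∈ A, v a ≤ 1 := by
    intro a ha
    have hle : A ≤ W.toSubring := by
      rw [hA, Subring.closure_le]
      rintro x (⟨a, ha, rfl⟩ | hx)
      · exact hVW a ha
      · rw [Set.mem_singleton_iff] at hx
        rw [hx]
        exact hsW
    exact (W.valuation_le_one_iff _).mpr (hle ha)
  -- `A = V + w A`
  have hdec : ∀ a ∈ A, ∃ a₀ ∈ V, ∃ a' ∈ A, a = φ a₀ + φ w * a' := by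
    intro a ha
    induction ha using Subring.closure_induction with
    | mem x hx =>
      rcases hx with ⟨a₀, ha₀, rfl⟩ | hx
      · exact ⟨a₀, ha₀, 0, A.zero_mem, by simp⟩
      · rw [Set.mem_singleton_iff] at hx
        subst hx
        exact hsdec
    | zero => exact ⟨0, zero_mem V, 0, A.zero_mem, by simp⟩
    | one => exact ⟨1, one_mem V, 0, A.zero_mem, by simp⟩
    | add x y hx hy ihx ihy =>
      obtain ⟨x₀, hx₀, x', hx', rfl⟩ := ihx
      obtain ⟨y₀, hy₀, y', hy', rfl⟩ := ihy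
      exact ⟨x₀ + y₀, add_mem hx₀ hy₀, x' + y', A.add_mem hx' hy', by rw [map_add]; ring⟩
    | neg x hx ihx =>
      obtain ⟨x₀, hx₀, x', hx', rfl⟩ := ihx
      exact ⟨-x₀, neg_mem hx₀, -x', A.neg_mem hx', by rw [map_neg]; ring⟩
    | mul x y hx hy ihx ihy =>
      obtain ⟨x₀, hx₀, x', hx', rfl⟩ := ihx
      obtain ⟨y₀, hy₀, y', hy', rfl⟩ := ihy
      refine ⟨x₀ * y₀, mul_mem hx₀ hy₀, φ x₀ * y' + x' * φ y₀ + φ w * x' * y', ?_, ?_⟩
      · exact A.add_mem (A.add_mem (A.mul_mem (hVA _ hx₀) hy') (A.mul_mem hx' (hVA _ hy₀)))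
          (A.mul_mem (A.mul_mem hwA hx') hy')
      · rw [map_mul]; ring
  -- non-units of `A` are divisible by `w`
  have hdiv : ∀ a ∈ A, v a < 1 → ∃ a' ∈ A, a = φ w * a' := by
    intro a ha hva
    obtain ⟨a₀, ha₀, a', ha', rfl⟩ := hdec a ha
    have h1 : v (φ w * a') < 1 := by
      rw [map_mul]
      calc v (φ w) * v a' ≤ v (φ w) * 1 := by gcongr; exact hAW a' ha'
        _ = v (φ w) := mul_one _
        _ < 1 := hvw
    have h2 : v (φ a₀) < 1 := by
      have : φ a₀ = (φ a₀ + φ w * a') - φ w * a' := by ring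
      rw [this]
      exact Valuation.map_sub_lt _ hva h1
    have h3 : a₀ * w⁻¹ ∈ V := by
      by_cases h0 : a₀ = 0
      · rw [h0, zero_mul]; exact zero_mem V
      refine hVgen a₀ ha₀ fun hinv => ?_
      have := hunitV a₀ ha₀ hinv h0
      rw [this] at h2
      exact lt_irrefl _ h2
    refine ⟨φ (a₀ * w⁻¹) + a', A.add_mem (hVA _ h3) ha', ?_⟩
    rw [mul_add, ← map_mul, mul_comm a₀, ← mul_assoc, mul_inv_cancel₀ hw0, one_mul]
  -- `Ω = A[1/w]`
  have hloc : ∀ b : Ω, ∃ k : ℕ, φ w ^ k * b ∈ A := by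
    intro b
    induction hgen b using Algebra.adjoin_induction with
    | mem x hx =>
      rw [Set.mem_singleton_iff] at hx
      rw [hx]
      refine ⟨0, ?_⟩
      rw [pow_zero, one_mul]
      exact hzA
    | algebraMap c =>
      obtain ⟨k, hk⟩ := hdisc c
      refine ⟨k, ?_⟩
      rw [← hφ, ← map_pow, ← map_mul]
      exact hVA _ hk
    | add x y _ _ ihx ihy =>
      obtain ⟨k₁, h₁⟩ := ihx
      obtain ⟨k₂, h₂⟩ := ihy
      refine ⟨k₁ + k₂, ?_⟩
      have : φ w ^ (k₁ + k₂) * (x + y) = φ w ^ k₂ * (φ w ^ k₁ * x) + φ w ^ k₁ * (φ w ^ k₂ * y) := by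
        rw [pow_add]; ring
      rw [this]
      exact A.add_mem (A.mul_mem (A.pow_mem hwA _) h₁) (A.mul_mem (A.pow_mem hwA _) h₂)
    | mul x y _ _ ihx ihy =>
      obtain ⟨k₁, h₁⟩ := ihx
      obtain ⟨k₂, h₂⟩ := ihy
      refine ⟨k₁ + k₂, ?_⟩
      have : φ w ^ (k₁ + k₂) * (x * y) = (φ w ^ k₁ * x) * (φ w ^ k₂ * y) := by
        rw [pow_add]; ring
      rw [this]
      exact A.mul_mem h₁ h₂
  -- `W ⊆ A`
  have hWA : ∀ b : Ω, v b ≤ 1 → b ∈ A := by
    intro b hb
    have hex := hloc b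
    have hk : Nat.find hex = 0 := by
      by_contra hne
      obtain ⟨k, hk⟩ : ∃ k, Nat.find hex = k + 1 := ⟨Nat.find hex - 1, by omega⟩
      have hmem := Nat.find_spec hex
      rw [hk] at hmem
      have hlt : v (φ w ^ (k + 1) * b) < 1 := by
        rw [map_mul, map_pow, pow_succ]
        calc v (φ w) ^ k * v (φ w) * v b ≤ 1 * v (φ w) * 1 := by
              gcongr
              exact pow_le_one₀ zero_le hvw.le
          _ = v (φ w) := by rw [one_mul, mul_one]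
          _ < 1 := hvw
      obtain ⟨a', ha', h'⟩ := hdiv _ hmem hlt
      have : φ w ^ k * b = a' := by
        have h6 : φ w * (φ w ^ k * b) = φ w * a' := by rw [← h', pow_succ]; ring
        exact mul_left_cancel₀ hφw0 h6
      have hmin := Nat.find_min hex (m := k) (by omega)
      exact hmin (this ▸ ha')
    have := Nat.find_spec hex
    rwa [hk, pow_zero, one_mul] at this
  refine ⟨fun b hbW hbinv => ?_, fun b hbW => ?_⟩
  · have hb1 : v b < 1 := valuation_lt_one_of_inv_notMem W hbinv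
    obtain ⟨a', ha', h'⟩ := hdiv b (hWA b hb1.le) hb1
    rw [h', mul_comm (φ w), mul_assoc, mul_inv_cancel₀ hφw0, mul_one]
    exact (W.valuation_le_one_iff _).mp (hAW a' ha')
  · obtain ⟨a₀, ha₀, a', ha', h'⟩ := hdec b (hWA b ((W.valuation_le_one_iff _).mpr hbW))
    refine ⟨a₀, ha₀, ?_⟩
    rw [h', add_sub_cancel_left, mul_comm (φ w), mul_assoc, mul_inv_cancel₀ hφw0, mul_one]
    exact (W.valuation_le_one_iff _).mp (hAW a' ha')

end Abstract

section Roots

variable {K : Type*} [Field K]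

/-- The geometric sum `1 + ζ + ⋯ + ζ ^ (j - 1) = (ζ ^ j - 1) / (ζ - 1)`. -/
noncomputable def geomU (ζ : K) (j : ℕ) : K := ∑ l ∈ Finset.range j, ζ ^ l

theorem geomU_mul (ζ : K) (j : ℕ) : geomU ζ j * (ζ - 1) = ζ ^ j - 1 := geom_sum_mul ζ j

theorem geomU_mem (V : ValuationSubring K) {ζ : K} (hζV : ζ ∈ V) (j : ℕ) : geomU ζ j ∈ V :=
  sum_mem fun l _ => pow_mem hζV l

/-- Cyclotomic units: `(ζ ^ j - 1) / (ζ - 1)` is invertible, with inverse a geometric sum. -/
theorem exists_geomU_inv {p : ℕ} (hp : p.Prime) {ζ : K} (hζ : IsPrimitiveRoot ζ p) {j : ℕ}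
    (hj0 : 0 < j) (hjp : j < p) : ∃ j' : ℕ, geomU ζ j * geomU (ζ ^ j) j' = 1 := by
  have hcop : Nat.Coprime j p := (Nat.coprime_of_lt_prime hj0.ne' hjp hp).symm
  obtain ⟨j', -, hj'⟩ := Nat.exists_mul_mod_eq_one_of_coprime hcop hp.one_lt
  refine ⟨j', ?_⟩
  have hlam : ζ - 1 ≠ 0 := sub_ne_zero.2 (hζ.ne_one hp.one_lt)
  have h1 := geomU_mul ζ j
  have h2 := geomU_mul (ζ ^ j) j'
  have h3 : (ζ ^ j) ^ j' = ζ := by
    rw [← pow_mul, pow_eq_pow_mod (j * j') hζ.pow_eq_one, hj', pow_one]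
  rw [h3, ← h1] at h2
  apply mul_right_cancel₀ hlam
  rw [one_mul]
  linear_combination h2

/-- `x ^ p - 1 = ∏_{k < p} (x - ζ ^ k)`. -/
theorem prod_range_sub_pow {p : ℕ} (hp : 0 < p) {ζ : K} (hζ : IsPrimitiveRoot ζ p) (x : K) :
    ∏ k ∈ Finset.range p, (x - ζ ^ k) = x ^ p - 1 := by
  classical
  have h := congrArg (eval x) (X_pow_sub_one_eq_prod hp hζ)
  simp only [eval_sub, eval_pow, eval_X, eval_one, eval_prod, eval_C] at h
  rw [h]
  have : NeZero p := ⟨hp.ne'⟩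
  refine Finset.prod_nbij (fun k => ζ ^ k) ?_ ?_ ?_ ?_
  · intro k _
    rw [mem_nthRootsFinset hp, ← pow_mul, mul_comm, pow_mul, hζ.pow_eq_one, one_pow]
  · intro a ha b hb hab
    exact hζ.pow_inj (Finset.mem_range.1 ha) (Finset.mem_range.1 hb) hab
  · intro η hη
    rw [Finset.mem_coe, mem_nthRootsFinset hp] at hη
    obtain ⟨i, hi, rfl⟩ := hζ.eq_pow_of_pow_eq_one hη
    exact ⟨i, Finset.mem_coe.2 (Finset.mem_range.2 hi), rfl⟩
  · intro k _
    rfl

end Roots

section ASUnram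

variable {K Ω : Type*} [Field K] [Field Ω] [Algebra K Ω]

/-- **Wild cyclic covers `z ^ p = 1 + (ζ - 1) ^ p w t` are unramified with trivial residue
extension** at every valuation subring `W` over `V`. -/
theorem as_unramified (V : ValuationSubring K) (W : ValuationSubring Ω)
    (hVW : ∀ a ∈ V, algebraMap K Ω a ∈ W)
    (w : K) (hwV : w ∈ V) (hw0 : w ≠ 0) (hwW : (algebraMap K Ω w)⁻¹ ∉ W)
    (hVgen : ∀ a ∈ V, a⁻¹ ∉ V → a * w⁻¹ ∈ V)
    (hdisc : ∀ c : K, ∃ k : ℕ, w ^ k * c ∈ V)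
    (p : ℕ) (hp : p.Prime)
    (ζ : K) (hζ : IsPrimitiveRoot ζ p)
    (t : K) (ht : t ∈ V) (z : Ω) (hz : z ^ p = algebraMap K Ω (1 + (ζ - 1) ^ p * w * t))
    (hgen : ∀ b : Ω, b ∈ Algebra.adjoin K ({z} : Set Ω)) :
    (∀ b ∈ W, b⁻¹ ∉ W → b * (algebraMap K Ω w)⁻¹ ∈ W) ∧
    (∀ b ∈ W, ∃ a ∈ V, (b - algebraMap K Ω a) * (algebraMap K Ω w)⁻¹ ∈ W) := by
  classical
  have hp0 : 0 < p := hp.pos
  set φ := algebraMap K Ω with hφ
  set v := W.valuation with hv
  have hφinj : Function.Injective φ := (algebraMap K Ω).injective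
  have hφw0 : φ w ≠ 0 := fun h => hw0 (hφinj (by rw [h, map_zero]))
  have hvV : ∀ a ∈ V, v (φ a) ≤ 1 := fun a ha => (W.valuation_le_one_iff _).mpr (hVW a ha)
  have hvw : v (φ w) < 1 := valuation_lt_one_of_inv_notMem W hwW
  have hunitV : ∀ a ∈ V, a⁻¹ ∈ V → a ≠ 0 → v (φ a) = 1 := by
    intro a ha hai ha0
    have h1 := hvV a ha
    have h2 := hvV _ hai
    rw [map_inv₀, map_inv₀] at h2
    have hpos : 0 < v (φ a) := by
      rw [pos_iff_ne_zero]
      exact (Valuation.ne_zero_iff _).mpr (fun h => ha0 (hφinj (by rw [h, map_zero])))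
    exact le_antisymm h1 ((inv_le_one₀ hpos).mp h2)
  -- the root of unity
  have hζp : ζ ^ p = 1 := hζ.pow_eq_one
  have hζV : ζ ∈ V := by
    rcases V.mem_or_inv_mem ζ with h | h
    · exact h
    · have h1 : (ζ⁻¹) ^ p = 1 := by rw [inv_pow, hζp, inv_one]
      have h2 := Fermat.Agent.A2.H552.inv_eq_pow_of_pow_eq_one hp0 h1
      rw [inv_inv] at h2
      rw [h2]
      exact pow_mem h _
  have hζ' : IsPrimitiveRoot (φ ζ) p := hζ.map_of_injective hφinj
  have hvζ : v (φ ζ) = 1 := by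
    have h1 : v (φ ζ) ^ p = 1 := by rw [← map_pow, ← map_pow, hζp, map_one, map_one]
    exact eq_one_of_pow_eq_one₀ hp0.ne' h1
  set lam : K := ζ - 1 with hlam
  have hlam0 : lam ≠ 0 := sub_ne_zero.2 (hζ.ne_one hp.one_lt)
  have hφlam0 : φ lam ≠ 0 := fun h => hlam0 (hφinj (by rw [h, map_zero]))
  have hvlam0 : v (φ lam) ≠ 0 := (Valuation.ne_zero_iff _).mpr hφlam0
  have hvlampos : 0 < v (φ lam) := zero_lt_iff.2 hvlam0
  -- cyclotomic units
  have hu : ∀ j, 0 < j → j < p → v (φ (geomU ζ j)) = 1 := by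
    intro j hj0 hjp
    obtain ⟨j', hj'⟩ := exists_geomU_inv hp hζ hj0 hjp
    refine hunitV _ (geomU_mem V hζV j) ?_ (left_ne_zero_of_mul_eq_one hj')
    rw [inv_eq_of_mul_eq_one_right hj']
    exact geomU_mem V (pow_mem hζV j) j'
  have hugeom : ∀ k, φ (geomU ζ k) * φ lam = φ ζ ^ k - 1 := by
    intro k
    rw [← map_mul, geomU_mul, map_sub, map_pow, map_one]
  have hroot : ∀ j, 0 < j → j < p → v (φ ζ ^ j - 1) = v (φ lam) := by
    intro j hj0 hjp
    rw [← hugeom j, map_mul, hu j hj0 hjp, one_mul]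
  -- the product formula
  have hprod : ∀ x : Ω, ∏ k ∈ Finset.range p, (x - φ ζ ^ k) = x ^ p - 1 :=
    prod_range_sub_pow hp0 hζ'
  have hzp : z ^ p - 1 = φ lam ^ p * φ w * φ t := by
    rw [hz, map_add, map_one, map_mul, map_mul, map_pow]
    ring
  have hvwt : v (φ w) * v (φ t) < 1 :=
    calc v (φ w) * v (φ t) ≤ v (φ w) * 1 := by gcongr; exact hvV t ht
      _ = v (φ w) := mul_one _
      _ < 1 := hvw
  have hvzp : v (z ^ p - 1) < v (φ lam) ^ p := by
    rw [hzp, map_mul, map_mul, map_pow, mul_assoc]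
    calc v (φ lam) ^ p * (v (φ w) * v (φ t)) < v (φ lam) ^ p * 1 :=
          mul_lt_mul_of_pos_left hvwt (pow_pos hvlampos p)
      _ = v (φ lam) ^ p := mul_one _
  -- some root of unity is close to `z`
  obtain ⟨k₀, hk₀, hzk₀⟩ : ∃ k₀ < p, v (z - φ ζ ^ k₀) < v (φ lam) := by
    by_contra hcon
    simp only [not_exists, not_and, not_lt] at hcon
    have h1 : v (φ lam) ^ p ≤ v (z ^ p - 1) := by
      rw [← hprod z, map_prod]
      have := Finset.pow_card_le_prod (Finset.range p) (fun k => v (z - φ ζ ^ k)) (v (φ lam))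
        (fun k hk => hcon k (Finset.mem_range.1 hk))
      rwa [Finset.card_range] at this
    exact absurd hvzp (not_lt.2 h1)
  -- normalise
  set η := φ ζ ^ k₀ with hη
  have hvη : v η = 1 := by rw [hη, map_pow, hvζ, one_pow]
  have hη0 : η ≠ 0 := by
    intro h
    rw [h, map_zero] at hvη
    exact zero_ne_one hvη
  have hηp : η ^ p = 1 := by
    rw [hη, ← pow_mul, mul_comm, pow_mul, hζ'.pow_eq_one, one_pow]
  set z₁ := z * η⁻¹ with hz₁
  have hz₁p : z₁ ^ p - 1 = φ lam ^ p * φ w * φ t := by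
    rw [hz₁, mul_pow, inv_pow, hηp, inv_one, mul_one, hzp]
  have hvz₁ : v (z₁ - 1) < v (φ lam) := by
    have : z₁ - 1 = (z - η) * η⁻¹ := by
      rw [hz₁, sub_mul, mul_inv_cancel₀ hη0]
    rw [this, map_mul, map_inv₀, hvη, inv_one, mul_one]
    exact hzk₀
  have hfac : ∀ k, 0 < k → k < p → v (z₁ - φ ζ ^ k) = v (φ lam) := by
    intro k hk0 hkp
    have : z₁ - φ ζ ^ k = (z₁ - 1) - (φ ζ ^ k - 1) := by ring
    rw [this, Valuation.map_sub_eq_of_lt_right]
    · exact hroot k hk0 hkp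
    · rw [hroot k hk0 hkp]
      exact hvz₁
  -- the generator `s`
  set s := (z₁ - 1) * (φ lam * φ w)⁻¹ with hs
  have hz₁s : z₁ - 1 = φ lam * φ w * s := by
    rw [hs, mul_comm (z₁ - 1), ← mul_assoc, mul_inv_cancel₀ (mul_ne_zero hφlam0 hφw0), one_mul]
  have hfacs : ∀ k, z₁ - φ ζ ^ k = φ lam * (φ w * s - φ (geomU ζ k)) := by
    intro k
    linear_combination hz₁s + hugeom k
  set PP := ∏ k ∈ Finset.Ico 1 p, (φ w * s - φ (geomU ζ k)) with hPP
  have hsplit : z₁ ^ p - 1 = φ lam ^ p * φ w * (s * PP) := by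
    rw [← hprod z₁, Finset.range_eq_Ico, Finset.prod_eq_prod_Ico_succ_bot hp0]
    have h0 : z₁ - φ ζ ^ 0 = φ lam * φ w * s := by rw [pow_zero, hz₁s]
    rw [h0, Finset.prod_congr rfl (fun k _ => hfacs k), Finset.prod_mul_distrib,
      Finset.prod_const, Nat.card_Ico, ← hPP]
    have hpp : p = (p - 1) + 1 := by omega
    have : φ lam ^ p = φ lam ^ (p - 1) * φ lam := by
      conv_lhs => rw [hpp]
      rw [pow_succ]
    rw [this]
    ring
  have hsPP : s * PP = φ t := by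
    have h1 : φ lam ^ p * φ w * (s * PP) = φ lam ^ p * φ w * φ t := by rw [← hsplit, hz₁p]
    exact mul_left_cancel₀ (mul_ne_zero (pow_ne_zero p hφlam0) hφw0) h1
  have hvPP : v PP = 1 := by
    rw [hPP, map_prod]
    refine Finset.prod_eq_one fun k hk => ?_
    rw [Finset.mem_Ico] at hk
    have h1 := hfac k (by omega) hk.2
    rw [hfacs k, map_mul] at h1
    have h2 : v (φ lam) * v (φ w * s - φ (geomU ζ k)) = v (φ lam) * 1 := by rw [h1, mul_one]
    exact mul_left_cancel₀ hvlam0 h2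
  have hPP0 : PP ≠ 0 := by
    intro h
    rw [h, map_zero] at hvPP
    exact zero_ne_one hvPP
  have hsW : s ∈ W := by
    rw [← W.valuation_le_one_iff]
    have : s = φ t * PP⁻¹ := by
      rw [← hsPP, mul_assoc, mul_inv_cancel₀ hPP0, mul_one]
    rw [this, map_mul, map_inv₀, hvPP, inv_one, mul_one]
    exact hvV t ht
  -- the subring `A = V[s]`
  set A : Subring Ω := Subring.closure (φ '' (V : Set K) ∪ {s}) with hA
  have hVA : ∀ a ∈ V, φ a ∈ A := fun a ha =>
    Subring.subset_closure (Or.inl ⟨a, ha, rfl⟩)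
  have hsA : s ∈ A := Subring.subset_closure (Or.inr rfl)
  have hwA : φ w ∈ A := hVA w hwV
  -- `PP ∈ (unit of V) + w A`
  have hPPdec : ∀ S : Finset ℕ, (∀ k ∈ S, 0 < k ∧ k < p) →
      ∃ U ∈ V, U⁻¹ ∈ V ∧ U ≠ 0 ∧ ∃ a ∈ A,
        ∏ k ∈ S, (φ w * s - φ (geomU ζ k)) = φ U + φ w * a := by
    intro S
    induction S using Finset.induction_on with
    | empty =>
      intro _
      exact ⟨1, one_mem V, by rw [inv_one]; exact one_mem V, one_ne_zero, 0, A.zero_mem, by simp⟩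
    | insert k S hkS ih =>
      intro hS
      obtain ⟨U, hU, hUi, hU0, a, ha, hprodS⟩ := ih fun k' hk' => hS k' (Finset.mem_insert_of_mem hk')
      obtain ⟨hk0, hkp⟩ := hS k (Finset.mem_insert_self k S)
      obtain ⟨j', hj'⟩ := exists_geomU_inv hp hζ hk0 hkp
      have hgV : geomU ζ k ∈ V := geomU_mem V hζV k
      have hgi : (geomU ζ k)⁻¹ ∈ V := by
        rw [inv_eq_of_mul_eq_one_right hj']
        exact geomU_mem V (pow_mem hζV k) j'
      have hg0 : geomU ζ k ≠ 0 := left_ne_zero_of_mul_eq_one hj'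
      refine ⟨-(geomU ζ k) * U, mul_mem (neg_mem hgV) hU, ?_, mul_ne_zero (neg_ne_zero.2 hg0) hU0,
        s * φ U + (φ w * s - φ (geomU ζ k)) * a, ?_, ?_⟩
      · rw [mul_inv, inv_neg]
        exact mul_mem (neg_mem hgi) hUi
      · exact A.add_mem (A.mul_mem hsA (hVA U hU))
          (A.mul_mem (A.sub_mem (A.mul_mem hwA hsA) (hVA _ hgV)) ha)
      · rw [Finset.prod_insert hkS, hprodS, map_mul, map_neg]
        ring
  obtain ⟨U, hU, hUi, hU0, a, ha, hPPU⟩ := hPPdec (Finset.Ico 1 p) fun k hk => by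
    rw [Finset.mem_Ico] at hk
    exact ⟨by omega, hk.2⟩
  rw [← hPP] at hPPU
  have hφU : φ U * φ U⁻¹ = 1 := by rw [← map_mul, mul_inv_cancel₀ hU0, map_one]
  have hsdec : ∃ a₀ ∈ V, ∃ a' ∈ A, s = φ a₀ + φ w * a' := by
    refine ⟨U⁻¹ * t, mul_mem hUi ht, -(φ U⁻¹ * s * a), A.neg_mem
      (A.mul_mem (A.mul_mem (hVA _ hUi) hsA) ha), ?_⟩
    have h1 : s * (φ U + φ w * a) = φ t := by rw [← hPPU]; exact hsPP
    rw [map_mul]
    linear_combination (φ U⁻¹) * h1 - s * hφU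
  have hzA : z ∈ A := by
    have hzz : z = η * (1 + φ lam * φ w * s) := by
      rw [← hz₁s, hz₁]
      field_simp
      ring
    rw [hzz]
    refine A.mul_mem ?_ (A.add_mem A.one_mem (A.mul_mem (A.mul_mem ?_ hwA) hsA))
    · rw [hη, ← map_pow]
      exact hVA _ (pow_mem hζV k₀)
    · exact hVA _ (sub_mem hζV (one_mem V))
  exact unramified_of_adjoin_decomp V W hVW w hwV hw0 hwW hVgen hdisc s hsW hsdec z hzA hgen

end ASUnram

end Fermat.Agent.Ribet.H552
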