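import Fermat.Agent.Ribet.H552.ASIdem
import Fermat.Agent.Ribet.H552.ASUnram
import Fermat.Agent.A2.H729.GaussClosed
import Mathlib.FieldTheory.Galois.Basic

/-!
# RIBET wall-p, leaf GLUE-p (helper552), part 2: the wild form of `A2.H729.alg_ss`

Setting of `A2.H729.alg_ss` (`R` noetherian domain with `R[X]` integrally closed, `w ∈ R` prime,
`F₀ ⊆ F` fields over `R`, `x₀ ∈ F₀` a coordinate, `R` integrally closed in `F`, `F / F₀` finite
Galois), but the exponent is a prime `p` WITHOUT the assumption that `p` is invertible in `R`: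
`ζ ∈ R` a primitive `p`-th root of unity, `λ = ζ - 1`.

* `as_ss` : `y ∈ F`, `y ^ p = u ∈ F₀`, `u ∈ 1 + λ^p w O₀`, and at every closed point `𝔫₀ ∋ w` of
  the two charts of `F₀` a local factorisation `u = ε * h ^ p`, `h ∈ 1 + λ w O₀`,
  `ε ∈ 1 + λ^p w (B₀)_{𝔫₀}`.  Then `u` is a `p`-th power in `F₀`.

Proof: `Y = (y - 1)/λ` satisfies `∏_{k<p} (Y - g_k) = (u - 1)/λ^p ≡ 0 mod w O`; the local models
`Y₁ = (y/h - 1)/λ` are integral at `𝔫₀`; `as_trivial_of_local` gives `Y ≡ g_k mod w O` for one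
`k`, i.e. `y' = ζ^{-k} y ∈ 1 + λ w O`; for `σ ∈ Gal(F/F₀)`, `σ y' = ζ^j y'` forces
`g_j ∈ w O ∩ R = w R`, so `j = 0`.
-/

set_option autoImplicit false
set_option linter.unusedSectionVars false

namespace Fermat.Agent.Ribet.H552

open Polynomial Fermat.Agent.S18.H138 Fermat.Agent.A2.H729

section ASEq

variable {R : Type*} [CommRing R] {F : Type*} [Field F] [Algebra R F]

/-- **Artin–Schreier form of the Kummer equation**: for `z = 1 + λ Z`,
`z ^ p - 1 = λ ^ p ∏_{k<p} (Z - g_k)`. -/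
theorem pow_sub_one_eq_prod_geomS {p : ℕ} (hp : 0 < p) {ζ : R}
    (hζF : IsPrimitiveRoot (algebraMap R F ζ) p) {z Z : F}
    (hz : z = 1 + algebraMap R F (ζ - 1) * Z) :
    z ^ p - 1 = algebraMap R F (ζ - 1) ^ p *
      ∏ k ∈ Finset.range p, (Z - algebraMap R F (geomS ζ k)) := by
  rw [← prod_range_sub_pow hp hζF z]
  have h : ∀ k ∈ Finset.range p, z - algebraMap R F ζ ^ k =
      algebraMap R F (ζ - 1) * (Z - algebraMap R F (geomS ζ k)) := by
    intro k _
    have h1 : algebraMap R F (geomS ζ k) * algebraMap R F (ζ - 1) = algebraMap R F ζ ^ k - 1 := by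
      rw [← map_mul, geomS_mul, map_sub, map_pow, map_one]
    rw [hz]
    linear_combination h1
  rw [Finset.prod_congr rfl h, Finset.prod_mul_distrib, Finset.prod_const, Finset.card_range]

/-- An element `Y` with `∏_{k ∈ s} (Y - a k) = b` is integral. -/
theorem isIntegral_of_prod_sub_eq {A : Type*} [CommRing A] [Nontrivial A] [Algebra A F]
    (s : Finset ℕ) (hs : s.Nonempty) (a : ℕ → A) (b : A) {Y : F}
    (h : ∏ k ∈ s, (Y - algebraMap A F (a k)) = algebraMap A F b) : IsIntegral A Y := by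
  have hm : (∏ k ∈ s, (X - C (a k))).Monic := monic_prod_X_sub_C a s
  have hdeg : (∏ k ∈ s, (X - C (a k))).natDegree = s.card := by
    rw [natDegree_prod_of_monic _ _ fun k _ => monic_X_sub_C (a k)]
    simp
  refine ⟨∏ k ∈ s, (X - C (a k)) - C b, hm.sub_of_left ?_, ?_⟩
  · rw [degree_eq_natDegree hm.ne_zero, hdeg]
    refine lt_of_le_of_lt degree_C_le ?_
    exact_mod_cast Finset.card_pos.2 hs
  · rw [eval₂_sub, eval₂_finsetProd, eval₂_C]
    simp only [eval₂_sub, eval₂_X, eval₂_C]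
    rw [h, sub_self]

end ASEq

section Loc

variable {R : Type*} [CommRing R] [IsDomain R] [IsIntegrallyClosed (Polynomial R)]
  {F₀ : Type*} [Field F₀] [Algebra R F₀]
  {F : Type*} [Field F] [Algebra R F] [Algebra F₀ F] [IsScalarTower R F₀ F]

/-- The local hypothesis of `as_trivial_of_local` from wild local factorisations on the base. -/
theorem hloc_of_localFactorisationP {w : R} (hw : Prime w) {x₀ : F₀}
    (hx : Transcendental R (algebraMap F₀ F x₀)) {p : ℕ} (hp : p.Prime) {ζ : R}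
    (hζF : IsPrimitiveRoot (algebraMap R F ζ) p) {u : F₀} {y Y : F}
    (hyu : y ^ p = algebraMap F₀ F u) (hyY : y = 1 + algebraMap R F (ζ - 1) * Y)
    (hYO : Y ∈ gaussO hw (algebraMap F₀ F x₀))
    (hLF : ∀ 𝔫₀ : Ideal (chart R ({x₀} : Set F₀)), 𝔫₀.IsMaximal →
      algebraMap R (chart R ({x₀} : Set F₀)) w ∈ 𝔫₀ →
      ∃ s : chart R ({x₀} : Set F₀), s ∉ 𝔫₀ ∧ ∃ h ε : F₀,
        (∃ t ∈ gaussO hw x₀, h - 1 = algebraMap R F₀ ((ζ - 1) * w) * t) ∧ u = ε * h ^ p ∧
        ∃ c ∈ chart R ({x₀} : Set F₀), (s : F₀) * (ε - 1) = algebraMap R F₀ ((ζ - 1) ^ p * w) * c) :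
    ∀ 𝔫 : Ideal (chart R ({algebraMap F₀ F x₀} : Set F)), 𝔫.IsMaximal →
      algebraMap R (chart R ({algebraMap F₀ F x₀} : Set F)) w ∈ 𝔫 →
      ∃ S : chart R ({algebraMap F₀ F x₀} : Set F), S ∉ 𝔫 ∧
        ∃ Y₁ : F, InW (gaussO hw (algebraMap F₀ F x₀)) w (Y - Y₁) ∧
          (S : F) * Y₁ ∈ chart R ({algebraMap F₀ F x₀} : Set F) := by
  intro 𝔫 h𝔫 hw𝔫
  have := h𝔫
  set O := gaussO hw (algebraMap F₀ F x₀) with hO
  have hmax := isMaximal_comap_chartMap (R := R) (F := F) x₀ 𝔫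
  have hw₀ : algebraMap R (chart R ({x₀} : Set F₀)) w ∈
      Ideal.comap (chartMap (R := R) (F := F) x₀) 𝔫 := by
    rw [Ideal.mem_comap, chartMap_algebraMap]
    exact hw𝔫
  obtain ⟨s₀, hs₀, h, ε, ⟨t, ht, hht⟩, huε, c, hc, hsc⟩ := hLF _ hmax hw₀
  set lam : F := algebraMap R F (ζ - 1) with hlam
  have hlam0 : lam ≠ 0 := by
    rw [hlam, map_sub, map_one]
    exact sub_ne_zero.2 (hζF.ne_one hp.one_lt)
  set hF : F := algebraMap F₀ F h with hhF
  have htO : algebraMap F₀ F t ∈ O := algebraMap_mem_gaussO (F := F) hw ht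
  have hhF1 : hF - 1 = lam * algebraMap R F w * algebraMap F₀ F t := by
    rw [hhF, ← map_one (algebraMap F₀ F), ← map_sub, hht, map_mul,
      ← IsScalarTower.algebraMap_apply R F₀ F, map_mul]
  have hInW : InW O w (hF - 1) := by
    refine ⟨lam * algebraMap F₀ F t, O.mul_mem (O.algebraMap_mem _) htO, ?_⟩
    rw [hhF1]; ring
  obtain ⟨hne, hinv, -⟩ := inW_inv_sub_one hw hx hInW
  have hh0 : h ≠ 0 := fun h0 => hne (by rw [hhF, h0, map_zero])
  have hyO : y ∈ O := by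
    rw [hyY]
    exact O.add_mem O.one_mem (O.mul_mem (O.algebraMap_mem _) hYO)
  set Y₁ : F := (y * hF⁻¹ - 1) * lam⁻¹ with hY₁
  have hz₁ : y * hF⁻¹ = 1 + lam * Y₁ := by
    rw [hY₁]
    have e0 : lam * lam⁻¹ = 1 := mul_inv_cancel₀ hlam0
    linear_combination (-(y * hF⁻¹ - 1)) * e0
  refine ⟨chartMap (R := R) (F := F) x₀ s₀, fun hs => hs₀ (Ideal.mem_comap.2 hs), Y₁, ?_, ?_⟩
  · refine ⟨y * hF⁻¹ * algebraMap F₀ F t, O.mul_mem (O.mul_mem hyO hinv) htO, ?_⟩
    apply mul_left_cancel₀ hlam0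
    have e1 : hF * hF⁻¹ = 1 := mul_inv_cancel₀ hne
    linear_combination -hyY + hz₁ + (y * hF⁻¹) * hhF1 - y * e1
  · have hSc : ((chartMap (R := R) (F := F) x₀ s₀ : chart R ({algebraMap F₀ F x₀} : Set F)) : F)
        = algebraMap F₀ F s₀ := rfl
    rw [hSc]
    set S : F := algebraMap F₀ F s₀ with hS
    -- the Artin–Schreier equation of `Y₁`
    have hAS := pow_sub_one_eq_prod_geomS hp.pos hζF hz₁
    have hε : algebraMap F₀ F ε = (y * hF⁻¹) ^ p := by
      rw [mul_pow, hyu, huε, map_mul, map_pow, inv_pow, mul_assoc,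
        mul_inv_cancel₀ (pow_ne_zero p hne), mul_one]
    have hSε : S * (algebraMap F₀ F ε - 1) = lam ^ p * algebraMap R F w * algebraMap F₀ F c := by
      rw [hS, ← map_one (algebraMap F₀ F), ← map_sub, ← map_mul, hsc, map_mul,
        ← IsScalarTower.algebraMap_apply R F₀ F, map_mul, map_pow]
    have hp1 : S ^ p = S ^ (p - 1) * S := by
      rw [← pow_succ]
      congr 1
      have := hp.pos
      omega
    have hprod : ∏ k ∈ Finset.range p, (S * Y₁ - S * algebraMap R F (geomS ζ k)) =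
        S ^ (p - 1) * algebraMap R F w * algebraMap F₀ F c := by
      have e1 : ∏ k ∈ Finset.range p, (S * Y₁ - S * algebraMap R F (geomS ζ k)) =
          S ^ p * ∏ k ∈ Finset.range p, (Y₁ - algebraMap R F (geomS ζ k)) := by
        rw [← Finset.card_range p, ← Finset.prod_const, Finset.card_range,
          ← Finset.prod_mul_distrib]
        exact Finset.prod_congr rfl fun k _ => by ring
      rw [e1]
      apply mul_left_cancel₀ (pow_ne_zero p hlam0)
      rw [← hε] at hAS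
      linear_combination (-(S ^ p)) * hAS + S ^ (p - 1) * hSε + (algebraMap F₀ F ε - 1) * hp1
    -- integrality over the chart
    let C' := chart R ({algebraMap F₀ F x₀} : Set F)
    have hSC : S ∈ C' := algebraMap_mem_chart_singleton s₀.2
    have hcC : algebraMap F₀ F c ∈ C' := algebraMap_mem_chart_singleton hc
    have hint : IsIntegral C' (S * Y₁) := by
      refine isIntegral_of_prod_sub_eq (A := C') (Finset.range p)
        ⟨0, Finset.mem_range.2 hp.pos⟩
        (fun k => (⟨S, hSC⟩ : C') * algebraMap R C' (geomS ζ k))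
        ((⟨S, hSC⟩ : C') ^ (p - 1) * algebraMap R C' w * ⟨algebraMap F₀ F c, hcC⟩) ?_
      exact hprod
    exact mem_chart_of_isIntegral_chart hint

end Loc

section Main

variable {R : Type*} [CommRing R] [IsDomain R] [IsNoetherianRing R]
  [IsIntegrallyClosed (Polynomial R)]
  {F₀ : Type*} [Field F₀] [Algebra R F₀]
  {F : Type*} [Field F] [Algebra R F] [Algebra F₀ F] [IsScalarTower R F₀ F] [CharZero F]

/-- **GLUE-p, field form (wild `alg_ss`).**  A Kummer class `u ∈ F₀` of prime order `p` with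
`u ∈ 1 + λ^p w O₀` and local factorisations `u = ε * h ^ p` (`h ∈ 1 + λ w O₀`,
`ε ∈ 1 + λ^p w (B₀)_{𝔫₀}`) at every closed point of the special fibre of both charts is a `p`-th
power in `F₀`, provided its Kummer extension `F` is regular over `R` (`hRF`). -/
theorem as_ss [IsGalois F₀ F] [FiniteDimensional F₀ F]
    (hinjR : Function.Injective (algebraMap R F))
    (hRF : ∀ y : F, IsIntegral R y → y ∈ Set.range (algebraMap R F))
    {x₀ : F₀} (hx : Transcendental R (algebraMap F₀ F x₀))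
    [FiniteDimensional (baseField R (algebraMap F₀ F x₀)) F]
    {w : R} (hw : Prime w) {p : ℕ} (hp : p.Prime) {ζ : R} (hζ : IsPrimitiveRoot ζ p)
    {u : F₀} {y : F} (hyu : y ^ p = algebraMap F₀ F u)
    (hgen : ∃ t ∈ gaussO hw x₀, u - 1 = algebraMap R F₀ ((ζ - 1) ^ p * w) * t)
    (hLF_fin : ∀ 𝔫₀ : Ideal (chart R ({x₀} : Set F₀)), 𝔫₀.IsMaximal →
      algebraMap R (chart R ({x₀} : Set F₀)) w ∈ 𝔫₀ →
      ∃ s : chart R ({x₀} : Set F₀), s ∉ 𝔫₀ ∧ ∃ h ε : F₀,
        (∃ t ∈ gaussO hw x₀, h - 1 = algebraMap R F₀ ((ζ - 1) * w) * t) ∧ u = ε * h ^ p ∧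
        ∃ c ∈ chart R ({x₀} : Set F₀), (s : F₀) * (ε - 1) = algebraMap R F₀ ((ζ - 1) ^ p * w) * c)
    (hLF_inf : ∀ 𝔫₀ : Ideal (chart R ({x₀⁻¹} : Set F₀)), 𝔫₀.IsMaximal →
      algebraMap R (chart R ({x₀⁻¹} : Set F₀)) w ∈ 𝔫₀ →
      ∃ s : chart R ({x₀⁻¹} : Set F₀), s ∉ 𝔫₀ ∧ ∃ h ε : F₀,
        (∃ t ∈ gaussO hw x₀, h - 1 = algebraMap R F₀ ((ζ - 1) * w) * t) ∧ u = ε * h ^ p ∧
        ∃ c ∈ chart R ({x₀⁻¹} : Set F₀),
          (s : F₀) * (ε - 1) = algebraMap R F₀ ((ζ - 1) ^ p * w) * c) :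
    ∃ y₀ : F₀, y₀ ^ p = u := by
  classical
  set x : F := algebraMap F₀ F x₀ with hxdef
  have hx0 : x ≠ 0 := ne_zero_of_transcendental hx
  have hx₀0 : x₀ ≠ 0 := fun h => hx0 (by rw [hxdef, h, map_zero])
  set O := gaussO hw x with hO
  have hζF : IsPrimitiveRoot (algebraMap R F ζ) p := hζ.map_of_injective hinjR
  set lam : F := algebraMap R F (ζ - 1) with hlam
  have hlam0 : lam ≠ 0 := by
    rw [hlam, map_sub, map_one]
    exact sub_ne_zero.2 (hζF.ne_one hp.one_lt)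
  set Y : F := (y - 1) * lam⁻¹ with hY
  have hyY : y = 1 + lam * Y := by
    rw [hY]
    have e0 : lam * lam⁻¹ = 1 := mul_inv_cancel₀ hlam0
    linear_combination (-(y - 1)) * e0
  obtain ⟨t, ht, hut⟩ := hgen
  have htO : algebraMap F₀ F t ∈ O := algebraMap_mem_gaussO (F := F) hw ht
  have hAS := pow_sub_one_eq_prod_geomS hp.pos hζF hyY
  have hprodY : ∏ k ∈ Finset.range p, (Y - algebraMap R F (geomS ζ k)) =
      algebraMap R F w * algebraMap F₀ F t := by
    apply mul_left_cancel₀ (pow_ne_zero p hlam0)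
    rw [← hAS, hyu, ← map_one (algebraMap F₀ F), ← map_sub, hut, map_mul,
      ← IsScalarTower.algebraMap_apply R F₀ F, map_mul, map_pow]
    ring
  have hYO : Y ∈ O := by
    apply mem_gaussO_of_isIntegral hw
    refine isIntegral_of_prod_sub_eq (A := O) (Finset.range p) ⟨0, Finset.mem_range.2 hp.pos⟩
      (fun k => algebraMap R O (geomS ζ k)) (algebraMap R O w * ⟨algebraMap F₀ F t, htO⟩) ?_
    exact hprodY
  have hA : InW O w (∏ k ∈ Finset.range p, (Y - algebraMap R F (geomS ζ k))) :=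
    ⟨_, htO, hprodY⟩
  -- inverses of the differences of the sheet values
  have hex : ∀ k l : ℕ, ∃ r : R, k < p → l < p → k ≠ l →
      (geomS ζ k - geomS ζ l) * r = 1 := by
    intro k l
    by_cases h : k < p ∧ l < p ∧ k ≠ l
    · obtain ⟨r, hr⟩ := exists_geomS_sub_inv hp hζ h.1 h.2.1 h.2.2
      exact ⟨r, fun _ _ _ => hr⟩
    · exact ⟨0, fun h1 h2 h3 => absurd ⟨h1, h2, h3⟩ h⟩
  choose d hd using hex
  have hd' : ∀ k ∈ Finset.range p, ∀ l ∈ Finset.range p, k ≠ l →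
      (geomS ζ k - geomS ζ l) * d k l = 1 :=
    fun k hk l hl hkl => hd k l (Finset.mem_range.1 hk) (Finset.mem_range.1 hl) hkl
  -- local integral models
  have hxinv : algebraMap F₀ F x₀⁻¹ = x⁻¹ := by rw [map_inv₀]
  have hxi : Transcendental R (algebraMap F₀ F x₀⁻¹) := by
    rw [hxinv]; exact transcendental_inv hx
  have hloc_fin := hloc_of_localFactorisationP (F := F) hw hx hp hζF hyu hyY hYO hLF_fin
  have hYO' : Y ∈ gaussO hw (algebraMap F₀ F x₀⁻¹) := by
    rw [hxinv, gaussO_inv hw hx0]; exact hYO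
  have hLF_inf' : ∀ 𝔫₀ : Ideal (chart R ({x₀⁻¹} : Set F₀)), 𝔫₀.IsMaximal →
      algebraMap R (chart R ({x₀⁻¹} : Set F₀)) w ∈ 𝔫₀ →
      ∃ s : chart R ({x₀⁻¹} : Set F₀), s ∉ 𝔫₀ ∧ ∃ h ε : F₀,
        (∃ t ∈ gaussO hw x₀⁻¹, h - 1 = algebraMap R F₀ ((ζ - 1) * w) * t) ∧ u = ε * h ^ p ∧
        ∃ c ∈ chart R ({x₀⁻¹} : Set F₀),
          (s : F₀) * (ε - 1) = algebraMap R F₀ ((ζ - 1) ^ p * w) * c := by
    rw [gaussO_inv hw hx₀0]
    exact hLF_inf
  have hloc_inf := hloc_of_localFactorisationP (F := F) hw hxi hp hζF hyu hyY hYO' hLF_inf'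
  rw [hxinv, gaussO_inv hw hx0] at hloc_inf
  obtain ⟨k₀, hk₀, T, hT, hYT⟩ := as_trivial_of_local hinjR hRF hx w hw O
    (chart_fin_le_gaussO hw x) (chart_inf_le_gaussO hw hx0) (qep_fin hw hx) (qep_inf hw hx)
    (qep_mid hw hx) (not_inW_one hinjR hw hx) (Finset.range p)
    ⟨0, Finset.mem_range.2 hp.pos⟩ (geomS ζ) d hd' hYO hA hloc_fin hloc_inf
  rw [Finset.mem_range] at hk₀
  -- the normalised root `y' = ζ^{-k₀} y ∈ 1 + λ w O`
  set ζi : R := ζ ^ (p - k₀) with hζi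
  have hζζ : ζ ^ k₀ * ζi = 1 := by
    rw [hζi, ← pow_add, show k₀ + (p - k₀) = p by omega, hζ.pow_eq_one]
  set y' : F := algebraMap R F ζi * y with hy'
  have hy'p : y' ^ p = algebraMap F₀ F u := by
    rw [hy', mul_pow, ← map_pow, hζi, ← pow_mul, mul_comm (p - k₀) p, pow_mul, hζ.pow_eq_one,
      one_pow, map_one, one_mul, hyu]
  set T' : F := algebraMap R F ζi * T with hT'
  have hT'O : T' ∈ O := O.mul_mem (O.algebraMap_mem _) hT
  have hy'1 : y' = 1 + lam * algebraMap R F w * T' := by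
    have h1 : algebraMap R F (geomS ζ k₀) * lam = algebraMap R F ζ ^ k₀ - 1 := by
      rw [hlam, ← map_mul, geomS_mul, map_sub, map_pow, map_one]
    have h2 : algebraMap R F ζ ^ k₀ * algebraMap R F ζi = 1 := by
      rw [← map_pow, ← map_mul, hζζ, map_one]
    rw [hy', hT']
    linear_combination (algebraMap R F ζi) * hyY + (algebraMap R F ζi * lam) * hYT +
      (algebraMap R F ζi) * h1 + h2
  have hy'0 : y' ≠ 0 := by
    intro h0
    apply not_inW_one hinjR hw hx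
    refine ⟨-(lam * T'), O.neg_mem (O.mul_mem (O.algebraMap_mem _) hT'O), ?_⟩
    rw [h0] at hy'1
    linear_combination -hy'1
  have hfix : ∀ σ : F ≃ₐ[F₀] F, σ y' = y' := by
    intro σ
    set ξ : F := σ y' * y'⁻¹ with hξ
    have hσy : σ y' = ξ * y' := by rw [hξ, mul_assoc, inv_mul_cancel₀ hy'0, mul_one]
    have hξp : ξ ^ p = 1 := by
      rw [hξ, mul_pow, ← map_pow, hy'p, σ.commutes, ← hy'p, inv_pow,
        mul_inv_cancel₀ (pow_ne_zero _ hy'0)]
    have : NeZero p := ⟨hp.ne_zero⟩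
    obtain ⟨j, hj, hjξ⟩ := hζF.eq_pow_of_pow_eq_one hξp
    have hσR : ∀ r : R, σ (algebraMap R F r) = algebraMap R F r := fun r => by
      rw [IsScalarTower.algebraMap_apply R F₀ F, σ.commutes]
    have hσT : σ T' ∈ O := algEquiv_mem_gaussO hw σ hT'O
    have hσlam : σ lam = lam := by
      rw [hlam]
      exact hσR _
    have h3 : σ y' = 1 + lam * algebraMap R F w * σ T' :=
      calc σ y' = σ (1 + lam * algebraMap R F w * T') := congrArg σ hy'1
        _ = 1 + lam * algebraMap R F w * σ T' := by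
          rw [map_add, map_one, map_mul, map_mul, hσlam, hσR]
    have h4 : algebraMap R F (geomS ζ j) * lam = ξ - 1 := by
      rw [← hjξ, hlam, ← map_mul, geomS_mul, map_sub, map_pow, map_one]
    have h5 : algebraMap R F (geomS ζ j) = algebraMap R F w * (σ T' - ξ * T') := by
      apply mul_left_cancel₀ hlam0
      linear_combination h4 + h3 - hσy - ξ * hy'1
    have hξO : ξ ∈ O := by
      rw [← hjξ, ← map_pow]
      exact O.algebraMap_mem _
    have h6 : InW O w (algebraMap R F (geomS ζ j)) :=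
      ⟨_, O.sub_mem hσT (O.mul_mem hξO hT'O), h5⟩
    have h7 : w ∣ geomS ζ j := dvd_of_inW_algebraMap hinjR hw hx h6
    have hj0 : j = 0 := by
      by_contra hne
      obtain ⟨r, hr⟩ := exists_geomS_inv hp hζ (Nat.pos_of_ne_zero hne) hj
      have h8 : w ∣ (1 : R) := by
        rw [← hr]
        exact h7.mul_right r
      exact hw.not_isUnit (isUnit_of_dvd_one h8)
    rw [hσy, ← hjξ, hj0, pow_zero, one_mul]
  obtain ⟨y₀, hy₀⟩ := (IsGalois.mem_range_algebraMap_iff_fixed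
    (F := F₀) (E := F) y').2 hfix
  refine ⟨y₀, ?_⟩
  apply (algebraMap F₀ F).injective
  rw [map_pow, hy₀, hy'p]

end Main

end Fermat.Agent.Ribet.H552
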