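import Fermat.Agent.Ribet.H495.AlgPSpec
import Fermat.Agent.Ribet.H552.ASGlue
import Fermat.Agent.A2.H729.Bridge

/-!
# RIBET wall-p, leaf GLUE-p (helper552), part 3: from `LocOneR` to the Gauss ring

Toolkit for the elementwise local conditions `A2.Alg.LocOne` / `H495.AlgP.LocOneR`:

* `locOne_mul`, `locOne_inv`, `locOne_of_le` : `1 + I B_n` is a group, monotone in `n`;
* `locOneR_pow_prime` : `h ∈ 1 + λ w B_n ⟹ h ^ p ∈ 1 + λ^p w B_n` (`λ = ζ - 1`; via
  `a^p - b^p = ∏_k (a - ζ^k b)`, no binomial coefficients);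
* `exists_gaussO_of_locOneR` (**bridge**): `h ∈ 1 + r B_{p₁}` and `h ∈ 1 + r B_{p₂}` on the two
  components of a reduced special fibre `⟹ h ∈ 1 + r · gaussO`, for every `r ∈ R`.
-/

set_option autoImplicit false
set_option linter.unusedSectionVars false

namespace Fermat.Agent.Ribet.H552

open Polynomial Fermat.Agent.S18.H138 Fermat.Agent.A2.H729
open Fermat.Agent.A2 Fermat.Agent.A2.Alg Fermat.Agent.Ribet.H495.AlgP

section LocOne

variable {R F : Type*} [CommRing R] [Field F] [Algebra R F] {B : Subalgebra R F}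

theorem locOne_mul {n I : Ideal B} (hn : n.IsPrime) {g g' : F}
    (h : LocOne B n I g) (h' : LocOne B n I g') : LocOne B n I (g * g') := by
  obtain ⟨a, b, hb, hab, e⟩ := h
  obtain ⟨a', b', hb', hab', e'⟩ := h'
  refine ⟨a * a', b * b', fun hmem => ?_, ?_, ?_⟩
  · rcases hn.mem_or_mem hmem with h1 | h1
    · exact hb h1
    · exact hb' h1
  · have : a * a' - b * b' = a * (a' - b') + (a - b) * b' := by ring
    rw [this]
    exact I.add_mem (I.mul_mem_left _ hab') (I.mul_mem_right _ hab)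
  · push_cast
    rw [← e, ← e']
    ring

theorem locOne_inv {n I : Ideal B} (hIn : I ≤ n) {g : F} (h : LocOne B n I g) :
    LocOne B n I g⁻¹ := by
  obtain ⟨a, b, hb, hab, e⟩ := h
  have ha : a ∉ n := by
    intro ha
    apply hb
    have : b = a - (a - b) := by ring
    rw [this]
    exact n.sub_mem ha (hIn hab)
  have hg : g ≠ 0 := by
    rintro rfl
    rw [zero_mul] at e
    apply ha
    have : a = 0 := Subtype.ext e.symm
    rw [this]
    exact n.zero_mem
  refine ⟨b, a, ha, ?_, ?_⟩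
  · have : b - a = -(a - b) := by ring
    rw [this]
    exact I.neg_mem hab
  · rw [← e, ← mul_assoc, inv_mul_cancel₀ hg, one_mul]

theorem locOne_of_le {n n' I : Ideal B} (hn : n' ≤ n) {g : F} (h : LocOne B n I g) :
    LocOne B n' I g := by
  obtain ⟨a, b, hb, hab, e⟩ := h
  exact ⟨a, b, fun hmem => hb (hn hmem), hab, e⟩

theorem locOne_ne_zero {n I : Ideal B} (hIn : I ≤ n) {g : F} (h : LocOne B n I g) : g ≠ 0 := by
  obtain ⟨a, b, hb, hab, e⟩ := h
  rintro rfl
  rw [zero_mul] at e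
  apply hb
  have ha : a = 0 := Subtype.ext e.symm
  have hb' : b = -(a - b) := by rw [ha]; ring
  rw [hb']
  exact n.neg_mem (hIn hab)

/-- `a ^ p - b ^ p = ∏_{k<p} (a - ζ ^ k b)`. -/
theorem prod_range_sub_mul {p : ℕ} (hp : 0 < p) {ζ : F} (hζ : IsPrimitiveRoot ζ p) (a b : F) :
    ∏ k ∈ Finset.range p, (a - ζ ^ k * b) = a ^ p - b ^ p := by
  by_cases hb : b = 0
  · subst hb
    simp [zero_pow hp.ne']
  · have h := prod_range_sub_pow hp hζ (a * b⁻¹)
    have h2 : ∏ k ∈ Finset.range p, (a - ζ ^ k * b) =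
        b ^ p * ∏ k ∈ Finset.range p, (a * b⁻¹ - ζ ^ k) := by
      rw [← Finset.card_range p, ← Finset.prod_const, Finset.card_range,
        ← Finset.prod_mul_distrib]
      refine Finset.prod_congr rfl fun k _ => ?_
      field_simp
    rw [h2, h, mul_pow, inv_pow]
    field_simp

/-- `h ∈ 1 + λ w B_n ⟹ h ^ p ∈ 1 + λ ^ p w B_n`. -/
theorem locOneR_pow_prime (hinj : Function.Injective (algebraMap R F)) {n : Ideal B}
    (hn : n.IsPrime) {p : ℕ} (hp : p.Prime) {ζ : R} (hζ : IsPrimitiveRoot ζ p) (w : R) {h : F}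
    (hh : LocOneR B n ((ζ - 1) * w) h) : LocOneR B n ((ζ - 1) ^ p * w) (h ^ p) := by
  classical
  obtain ⟨a, b, hb, hab, e⟩ := hh
  obtain ⟨c, hc⟩ := Ideal.mem_span_singleton'.1 hab
  have hζF : IsPrimitiveRoot (algebraMap R F ζ) p := hζ.map_of_injective hinj
  refine ⟨a ^ p, b ^ p, fun hmem => hb (hn.mem_of_pow_mem _ hmem), ?_, ?_⟩
  · rw [Ideal.mem_span_singleton']
    refine ⟨c * ∏ k ∈ Finset.Ico 1 p,
      (algebraMap R B w * c - algebraMap R B (geomS ζ k) * b), ?_⟩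
    apply Subtype.ext
    have hcF : (c : F) * (algebraMap R F (ζ - 1) * algebraMap R F w) = (a : F) - (b : F) := by
      have := congrArg (fun t : B => (t : F)) hc
      simpa [map_mul] using this
    have hfac : ∀ k, (a : F) - algebraMap R F ζ ^ k * (b : F) =
        algebraMap R F (ζ - 1) * (algebraMap R F w * (c : F) -
          algebraMap R F (geomS ζ k) * (b : F)) := by
      intro k
      have h1 : algebraMap R F (geomS ζ k) * algebraMap R F (ζ - 1) =
          algebraMap R F ζ ^ k - 1 := by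
        rw [← map_mul, geomS_mul, map_sub, map_pow, map_one]
      linear_combination -hcF + (b : F) * h1
    have hprod := prod_range_sub_mul hp.pos hζF (a : F) (b : F)
    rw [Finset.range_eq_Ico, Finset.prod_eq_prod_Ico_succ_bot hp.pos, pow_zero, one_mul,
      zero_add, Finset.prod_congr rfl (fun k _ => hfac k), Finset.prod_mul_distrib,
      Finset.prod_const, Nat.card_Ico] at hprod
    have hpp : algebraMap R F (ζ - 1) ^ p =
        algebraMap R F (ζ - 1) ^ (p - 1) * algebraMap R F (ζ - 1) := by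
      rw [← pow_succ]
      congr 1
      have := hp.pos
      omega
    have hgoal : ((c * ∏ k ∈ Finset.Ico 1 p,
        (algebraMap R B w * c - algebraMap R B (geomS ζ k) * b) : B) : F) *
        ((algebraMap R B ((ζ - 1) ^ p * w) : B) : F) = ((a ^ p - b ^ p : B) : F) := by
      have e1 : ((algebraMap R B ((ζ - 1) ^ p * w) : B) : F) =
          algebraMap R F (ζ - 1) ^ p * algebraMap R F w := by
        rw [← map_pow, ← map_mul]
        rfl
      have e2 : ((c * ∏ k ∈ Finset.Ico 1 p,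
          (algebraMap R B w * c - algebraMap R B (geomS ζ k) * b) : B) : F) =
          (c : F) * ∏ k ∈ Finset.Ico 1 p,
            (algebraMap R F w * (c : F) - algebraMap R F (geomS ζ k) * (b : F)) := by
        push_cast
        rfl
      have e3 : ((a ^ p - b ^ p : B) : F) = (a : F) ^ p - (b : F) ^ p := by
        push_cast
        rfl
      rw [e1, e2, e3, ← hprod, hpp]
      linear_combination (algebraMap R F (ζ - 1) ^ (p - 1) * ∏ k ∈ Finset.Ico 1 p,
        (algebraMap R F w * (c : F) - algebraMap R F (geomS ζ k) * (b : F))) * hcF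
    exact hgoal
  · push_cast
    rw [← e, mul_pow]

end LocOne

section Bridge

variable {R : Type*} [CommRing R] [IsDomain R] {F : Type*} [Field F] [Algebra R F]

/-- **Bridge, depth `r`.**  `h ∈ 1 + r B_{p₁}` and `h ∈ 1 + r B_{p₂}` imply
`h ∈ 1 + r · gaussO`. -/
theorem exists_gaussO_of_locOneR {w : R} (hw : Prime w) {x : F}
    (hx : Transcendental R x) {p₁ p₂ : Ideal (chart R ({x} : Set F))}
    (hp₁ : p₁.IsPrime) (hp₂ : p₂.IsPrime)
    (hinf : p₁ ⊓ p₂ = Ideal.span {algebraMap R (chart R ({x} : Set F)) w})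
    (h₁₂ : ¬ p₁ ≤ p₂) (h₂₁ : ¬ p₂ ≤ p₁) (r : R) {h : F}
    (hone₁ : LocOneR (chart R ({x} : Set F)) p₁ r h)
    (hone₂ : LocOneR (chart R ({x} : Set F)) p₂ r h) :
    ∃ t ∈ gaussO hw x, h - 1 = algebraMap R F r * t := by
  obtain ⟨a₁, b₁, hb₁, hab₁, e₁⟩ := hone₁
  obtain ⟨a₂, b₂, hb₂, hab₂, e₂⟩ := hone₂
  obtain ⟨d₁, hd₁⟩ := Ideal.mem_span_singleton'.1 hab₁
  obtain ⟨d₂, hd₂⟩ := Ideal.mem_span_singleton'.1 hab₂
  obtain ⟨c₂, hc₂p₁, hc₂p₂⟩ := SetLike.not_le_iff_exists.1 h₁₂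
  obtain ⟨c₁, hc₁p₂, hc₁p₁⟩ := SetLike.not_le_iff_exists.1 h₂₁
  -- `c₁ ∈ p₂ ∖ p₁`, `c₂ ∈ p₁ ∖ p₂`
  set b := b₁ * c₁ + b₂ * c₂ with hb
  have hbp₁ : b ∉ p₁ := by
    intro hmem
    have h1 : b₂ * c₂ ∈ p₁ := p₁.mul_mem_left _ hc₂p₁
    have h2 : b₁ * c₁ ∈ p₁ := by
      have := p₁.sub_mem hmem h1
      rwa [hb, add_sub_cancel_right] at this
    rcases hp₁.mem_or_mem h2 with h3 | h3
    · exact hb₁ h3
    · exact hc₁p₁ h3
  have hbp₂ : b ∉ p₂ := by
    intro hmem
    have h1 : b₁ * c₁ ∈ p₂ := p₂.mul_mem_left _ hc₁p₂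
    have h2 : b₂ * c₂ ∈ p₂ := by
      have := p₂.sub_mem hmem h1
      rwa [hb, add_sub_cancel_left] at this
    rcases hp₂.mem_or_mem h2 with h3 | h3
    · exact hb₂ h3
    · exact hc₂p₂ h3
  have hbinv := inv_mem_gaussO_of_not_mem hw hx hp₁ hp₂ hinf hbp₁ hbp₂
  have hb0 : (b : F) ≠ 0 := by
    intro h0
    apply hbp₁
    have : b = 0 := Subtype.ext h0
    rw [this]
    exact p₁.zero_mem
  have hd₁F : (d₁ : F) * algebraMap R F r = (a₁ : F) - (b₁ : F) :=
    congrArg (fun t : chart R ({x} : Set F) => (t : F)) hd₁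
  have hd₂F : (d₂ : F) * algebraMap R F r = (a₂ : F) - (b₂ : F) :=
    congrArg (fun t : chart R ({x} : Set F) => (t : F)) hd₂
  have hbF : (b : F) = (b₁ : F) * c₁ + (b₂ : F) * c₂ := by rw [hb]; rfl
  refine ⟨((d₁ : F) * c₁ + (d₂ : F) * c₂) * (b : F)⁻¹,
    Subalgebra.mul_mem _ (chart_fin_le_gaussO hw x
      (Subalgebra.add_mem _ (Subalgebra.mul_mem _ d₁.2 c₁.2) (Subalgebra.mul_mem _ d₂.2 c₂.2)))
      hbinv, ?_⟩
  have key : (h - 1) * (b : F) = algebraMap R F r * ((d₁ : F) * c₁ + (d₂ : F) * c₂) := by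
    rw [hbF]
    linear_combination (c₁ : F) * e₁ + (c₂ : F) * e₂ - (c₁ : F) * hd₁F - (c₂ : F) * hd₂F
  have : h - 1 = ((h - 1) * (b : F)) * (b : F)⁻¹ := by
    rw [mul_assoc, mul_inv_cancel₀ hb0, mul_one]
  rw [this, key]
  ring

end Bridge

end Fermat.Agent.Ribet.H552
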