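import Fermat.Agent.A2.H729.AlgSS
import Mathlib.LinearAlgebra.Lagrange
import Mathlib.Data.Int.GCD

/-!
# RIBET wall-p, leaf GLUE-p (helper552), part 1: the sheet idempotents of an Artin–Schreier cover

`R` a domain, `ζ ∈ R` a primitive `p`-th root of unity (`p` prime), `λ = ζ - 1`,
`g_k = 1 + ζ + ⋯ + ζ^(k-1) = (ζ^k - 1)/λ` (`geomS`): the differences `g_k - g_l`, `k ≠ l < p`, are
units of `R` (cyclotomic units).

For `y = 1 + λ Y` one has `y ^ p - 1 = λ ^ p ∏_{k<p} (Y - g_k)` (`pow_sub_one_eq_prod_geomS`):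
the Artin–Schreier form of the Kummer equation.  If `∏_k (Y - g_k) ≡ 0 mod w O`, the Lagrange
idempotents `sheetIdem k = ∏_{l ≠ k} (Y - g_l)/(g_k - g_l)` are orthogonal idempotents modulo `w O`
with sum `1` (`inW_sheetIdem_sq_sub`, `sum_sheetIdem`).

`as_trivial_of_local` (**version B-p** of `A2.H729.kummer_trivial_of_local`): on a two-chart model
with connected reduced special fibre, if `Y` has local integral models at every closed point of
the special fibre, then `Y ≡ g_k mod w O` for ONE `k`, globally.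
-/

set_option autoImplicit false
set_option linter.unusedSectionVars false

namespace Fermat.Agent.Ribet.H552

open Polynomial Fermat.Agent.S18.H138 Fermat.Agent.A2.H729

section CycUnits

variable {R : Type*} [CommRing R]

/-- The geometric sum `1 + ζ + ⋯ + ζ ^ (j - 1)`. -/
def geomS (ζ : R) (j : ℕ) : R := ∑ l ∈ Finset.range j, ζ ^ l

theorem geomS_zero (ζ : R) : geomS ζ 0 = 0 := by simp [geomS]

theorem geomS_mul (ζ : R) (j : ℕ) : geomS ζ j * (ζ - 1) = ζ ^ j - 1 := geom_sum_mul ζ j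

variable [IsDomain R]

/-- Cyclotomic units. -/
theorem exists_geomS_inv {p : ℕ} (hp : p.Prime) {ζ : R} (hζ : IsPrimitiveRoot ζ p) {j : ℕ}
    (hj0 : 0 < j) (hjp : j < p) : ∃ r : R, geomS ζ j * r = 1 := by
  have hcop : Nat.Coprime j p := (Nat.coprime_of_lt_prime hj0.ne' hjp hp).symm
  obtain ⟨j', -, hj'⟩ := Nat.exists_mul_mod_eq_one_of_coprime hcop hp.one_lt
  refine ⟨geomS (ζ ^ j) j', ?_⟩
  have hlam : ζ - 1 ≠ 0 := sub_ne_zero.2 (hζ.ne_one hp.one_lt)
  have h1 := geomS_mul ζ j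
  have h2 := geomS_mul (ζ ^ j) j'
  have h3 : (ζ ^ j) ^ j' = ζ := by
    rw [← pow_mul, pow_eq_pow_mod (j * j') hζ.pow_eq_one, hj', pow_one]
  rw [h3, ← h1] at h2
  apply mul_right_cancel₀ hlam
  rw [one_mul]
  linear_combination h2

theorem geomS_sub_of_le {ζ : R} (hζ1 : ζ - 1 ≠ 0) {k l : ℕ} (hlk : l ≤ k) :
    geomS ζ k - geomS ζ l = ζ ^ l * geomS ζ (k - l) := by
  apply mul_right_cancel₀ hζ1
  have h1 := geomS_mul ζ k
  have h2 := geomS_mul ζ l
  have h3 := geomS_mul ζ (k - l)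
  have h4 : ζ ^ k = ζ ^ l * ζ ^ (k - l) := by rw [← pow_add]; congr 1; omega
  rw [h4] at h1
  linear_combination h1 - h2 - ζ ^ l * h3

/-- The differences of the sheet values are units. -/
theorem exists_geomS_sub_inv {p : ℕ} (hp : p.Prime) {ζ : R} (hζ : IsPrimitiveRoot ζ p) {k l : ℕ}
    (hk : k < p) (hl : l < p) (hkl : k ≠ l) : ∃ r : R, (geomS ζ k - geomS ζ l) * r = 1 := by
  have hlam : ζ - 1 ≠ 0 := sub_ne_zero.2 (hζ.ne_one hp.one_lt)
  have key : ∀ a b : ℕ, a < p → b < a → ∃ r : R, (geomS ζ a - geomS ζ b) * r = 1 := by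
    intro a b ha hba
    obtain ⟨r, hr⟩ := exists_geomS_inv hp hζ (j := a - b) (by omega) (by omega)
    refine ⟨ζ ^ (p - b) * r, ?_⟩
    rw [geomS_sub_of_le hlam hba.le]
    have h1 : ζ ^ b * ζ ^ (p - b) = 1 := by
      rw [← pow_add, show b + (p - b) = p by omega, hζ.pow_eq_one]
    linear_combination geomS ζ (a - b) * r * h1 + hr
  rcases lt_or_gt_of_ne hkl with h | h
  · obtain ⟨r, hr⟩ := key l k hl h
    exact ⟨-r, by linear_combination hr⟩
  · exact key k l hk h

end CycUnits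

section Sheet

variable {R : Type*} [CommRing R] {F : Type*} [Field F] [Algebra R F]

/-- The Lagrange idempotent of the sheet `Y ≡ g k` (`d k l` is the inverse of `g k - g l`). -/
noncomputable def sheetIdem (s : Finset ℕ) (g : ℕ → R) (d : ℕ → ℕ → R) (Y : F) (k : ℕ) : F :=
  ∏ l ∈ s.erase k, (algebraMap R F (d k l) * (Y - algebraMap R F (g l)))

theorem sheetIdem_mem {O : Subalgebra R F} (s : Finset ℕ) (g : ℕ → R) (d : ℕ → ℕ → R) {Y : F}
    (hY : Y ∈ O) (k : ℕ) : sheetIdem s g d Y k ∈ O :=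
  Subalgebra.prod_mem _ fun _ _ =>
    O.mul_mem (O.algebraMap_mem _) (O.sub_mem hY (O.algebraMap_mem _))

theorem sub_mul_sheetIdem (s : Finset ℕ) (g : ℕ → R) (d : ℕ → ℕ → R) (Y : F) {k : ℕ}
    (hk : k ∈ s) :
    (Y - algebraMap R F (g k)) * sheetIdem s g d Y k =
      (∏ l ∈ s.erase k, algebraMap R F (d k l)) * ∏ l ∈ s, (Y - algebraMap R F (g l)) := by
  rw [sheetIdem, Finset.prod_mul_distrib,
    ← Finset.mul_prod_erase s (fun l => Y - algebraMap R F (g l)) hk]
  ring

theorem inW_sub_mul_sheetIdem {O : Subalgebra R F} {w : R} (s : Finset ℕ) (g : ℕ → R)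
    (d : ℕ → ℕ → R) {Y : F} (hA : InW O w (∏ l ∈ s, (Y - algebraMap R F (g l)))) {k : ℕ}
    (hk : k ∈ s) : InW O w ((Y - algebraMap R F (g k)) * sheetIdem s g d Y k) := by
  rw [sub_mul_sheetIdem s g d Y hk]
  exact hA.mul_left (Subalgebra.prod_mem _ fun _ _ => O.algebraMap_mem _)

theorem inW_sheetIdem_mul {O : Subalgebra R F} {w : R} (s : Finset ℕ) (g : ℕ → R)
    (d : ℕ → ℕ → R) {Y : F} (hY : Y ∈ O)
    (hA : InW O w (∏ l ∈ s, (Y - algebraMap R F (g l)))) {k l : ℕ}
    (hk : k ∈ s) (hkl : k ≠ l) :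
    InW O w (sheetIdem s g d Y k * sheetIdem s g d Y l) := by
  have hkl' : k ∈ s.erase l := Finset.mem_erase.2 ⟨hkl, hk⟩
  have h1 : sheetIdem s g d Y l = (algebraMap R F (d l k) * (Y - algebraMap R F (g k))) *
      ∏ j ∈ (s.erase l).erase k, (algebraMap R F (d l j) * (Y - algebraMap R F (g j))) := by
    rw [sheetIdem, Finset.mul_prod_erase (s.erase l)
      (fun j => algebraMap R F (d l j) * (Y - algebraMap R F (g j))) hkl']
  have h2 : sheetIdem s g d Y k * sheetIdem s g d Y l =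
      ((Y - algebraMap R F (g k)) * sheetIdem s g d Y k) * (algebraMap R F (d l k) *
        ∏ j ∈ (s.erase l).erase k, (algebraMap R F (d l j) * (Y - algebraMap R F (g j)))) := by
    rw [h1]; ring
  rw [h2]
  exact (inW_sub_mul_sheetIdem s g d hA hk).mul_right (O.mul_mem (O.algebraMap_mem _)
    (Subalgebra.prod_mem _ fun _ _ =>
      O.mul_mem (O.algebraMap_mem _) (O.sub_mem hY (O.algebraMap_mem _))))

/-- Lagrange interpolation of the constant `1`. -/
theorem sum_sheetIdem (s : Finset ℕ) (hs : s.Nonempty) (g : ℕ → R) (d : ℕ → ℕ → R)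
    (hd : ∀ k ∈ s, ∀ l ∈ s, k ≠ l → (g k - g l) * d k l = 1) (Y : F) :
    ∑ k ∈ s, sheetIdem s g d Y k = 1 := by
  classical
  set v : ℕ → F := fun k => algebraMap R F (g k) with hv
  have hdF : ∀ k ∈ s, ∀ l ∈ s, k ≠ l → (v k - v l) * algebraMap R F (d k l) = 1 := by
    intro k hk l hl hkl
    have := congrArg (algebraMap R F) (hd k hk l hl hkl)
    rwa [map_mul, map_sub, map_one] at this
  have hinj : Set.InjOn v s := by
    intro k hk l hl hkl
    by_contra hne
    have := hdF k hk l hl hne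
    rw [hkl, sub_self, zero_mul] at this
    exact zero_ne_one this
  have h := congrArg (eval Y) (Lagrange.sum_basis hinj hs)
  rw [eval_finsetSum, eval_one] at h
  rw [← h]
  refine Finset.sum_congr rfl fun k hk => ?_
  rw [sheetIdem, Lagrange.basis, eval_prod]
  refine Finset.prod_congr rfl fun l hl => ?_
  rw [Lagrange.basisDivisor, eval_mul, eval_C, eval_sub, eval_X, eval_C]
  have hl' := Finset.mem_erase.1 hl
  rw [eq_inv_of_mul_eq_one_right (hdF k hk l hl'.2 (Ne.symm hl'.1))]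

/-- The sheet idempotents are idempotent modulo `w O`. -/
theorem inW_sheetIdem_sq_sub {O : Subalgebra R F} {w : R} (s : Finset ℕ) (g : ℕ → R)
    (d : ℕ → ℕ → R) (hd : ∀ k ∈ s, ∀ l ∈ s, k ≠ l → (g k - g l) * d k l = 1) {Y : F}
    (hY : Y ∈ O) (hA : InW O w (∏ l ∈ s, (Y - algebraMap R F (g l)))) {k : ℕ} (hk : k ∈ s) :
    InW O w (sheetIdem s g d Y k ^ 2 - sheetIdem s g d Y k) := by
  classical
  have hsum := sum_sheetIdem (F := F) s ⟨k, hk⟩ g d hd Y
  rw [← Finset.add_sum_erase s _ hk] at hsum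
  have h1 : sheetIdem s g d Y k ^ 2 - sheetIdem s g d Y k =
      -(∑ l ∈ s.erase k, sheetIdem s g d Y k * sheetIdem s g d Y l) := by
    rw [← Finset.mul_sum]
    have : ∑ l ∈ s.erase k, sheetIdem s g d Y l = 1 - sheetIdem s g d Y k := by
      linear_combination hsum
    rw [this]; ring
  rw [h1]
  exact (InW.sum _ _ fun l hl =>
    inW_sheetIdem_mul s g d hY hA hk (Finset.ne_of_mem_erase hl).symm).neg

theorem inW_sub_of_inW_one_sub_sheetIdem {O : Subalgebra R F} {w : R} (s : Finset ℕ)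
    (g : ℕ → R) (d : ℕ → ℕ → R) {Y : F} (hY : Y ∈ O)
    (hA : InW O w (∏ l ∈ s, (Y - algebraMap R F (g l)))) {k : ℕ} (hk : k ∈ s)
    (h : InW O w (1 - sheetIdem s g d Y k)) : InW O w (Y - algebraMap R F (g k)) := by
  have : Y - algebraMap R F (g k) = (Y - algebraMap R F (g k)) * sheetIdem s g d Y k +
      (Y - algebraMap R F (g k)) * (1 - sheetIdem s g d Y k) := by ring
  rw [this]
  exact (inW_sub_mul_sheetIdem s g d hA hk).add
    (h.mul_left (O.sub_mem hY (O.algebraMap_mem _)))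

/-- Products of congruent factors are congruent. -/
theorem inW_prod_sub_prod {O : Subalgebra R F} {w : R} (t : Finset ℕ) (a b : ℕ → F)
    (ha : ∀ l ∈ t, a l ∈ O) (hb : ∀ l ∈ t, b l ∈ O) (hab : ∀ l ∈ t, InW O w (a l - b l)) :
    InW O w (∏ l ∈ t, a l - ∏ l ∈ t, b l) := by
  classical
  induction t using Finset.induction_on with
  | empty => simpa using InW.zero O w
  | insert j t hj ih =>
    rw [Finset.prod_insert hj, Finset.prod_insert hj]
    have e : a j * ∏ l ∈ t, a l - b j * ∏ l ∈ t, b l =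
        a j * (∏ l ∈ t, a l - ∏ l ∈ t, b l) + (a j - b j) * ∏ l ∈ t, b l := by ring
    rw [e]
    exact ((ih (fun l hl => ha l (Finset.mem_insert_of_mem hl))
      (fun l hl => hb l (Finset.mem_insert_of_mem hl))
      (fun l hl => hab l (Finset.mem_insert_of_mem hl))).mul_left
        (ha j (Finset.mem_insert_self j t))).add
      ((hab j (Finset.mem_insert_self j t)).mul_right
        (Subalgebra.prod_mem _ fun l hl => hb l (Finset.mem_insert_of_mem hl)))

/-- Local regularity of the sheet idempotents from a local integral model of `Y`. -/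
theorem sheetIdem_locally_regular {C O : Subalgebra R F} (hCO : C ≤ O) {w : R} (s : Finset ℕ)
    (g : ℕ → R) (d : ℕ → ℕ → R) {Y : F} (hY : Y ∈ O) (k : ℕ) (𝔫 : Ideal C) [h𝔫 : 𝔫.IsPrime]
    {S : C} (hS : S ∉ 𝔫) {Y₁ : F} (h₁ : InW O w (Y - Y₁)) (hSY : (S : F) * Y₁ ∈ C) :
    ∃ S' : C, S' ∉ 𝔫 ∧ ∃ e ∈ C, InW O w ((S' : F) * sheetIdem s g d Y k - e) := by
  classical
  have hY₁ : Y₁ ∈ O := by
    have : Y₁ = Y - (Y - Y₁) := by ring
    rw [this]
    exact O.sub_mem hY h₁.mem
  refine ⟨S ^ (s.erase k).card, fun h => hS (h𝔫.mem_of_pow_mem _ h),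
    (S : F) ^ (s.erase k).card * sheetIdem s g d Y₁ k, ?_, ?_⟩
  · have : (S : F) ^ (s.erase k).card * sheetIdem s g d Y₁ k =
        ∏ l ∈ s.erase k, (algebraMap R F (d k l) *
          ((S : F) * Y₁ - (S : F) * algebraMap R F (g l))) := by
      rw [sheetIdem, ← Finset.prod_const, ← Finset.prod_mul_distrib]
      exact Finset.prod_congr rfl fun l _ => by ring
    rw [this]
    exact Subalgebra.prod_mem _ fun l _ => C.mul_mem (C.algebraMap_mem _)
      (C.sub_mem hSY (C.mul_mem S.2 (C.algebraMap_mem _)))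
  · have hdiff : InW O w (sheetIdem s g d Y k - sheetIdem s g d Y₁ k) := by
      refine inW_prod_sub_prod (s.erase k) _ _
        (fun l _ => O.mul_mem (O.algebraMap_mem _) (O.sub_mem hY (O.algebraMap_mem _)))
        (fun l _ => O.mul_mem (O.algebraMap_mem _) (O.sub_mem hY₁ (O.algebraMap_mem _)))
        (fun l _ => ?_)
      have : algebraMap R F (d k l) * (Y - algebraMap R F (g l)) -
          algebraMap R F (d k l) * (Y₁ - algebraMap R F (g l)) =
          algebraMap R F (d k l) * (Y - Y₁) := by ring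
      rw [this]
      exact h₁.mul_left (O.algebraMap_mem _)
    have : ((S ^ (s.erase k).card : C) : F) * sheetIdem s g d Y k -
        (S : F) ^ (s.erase k).card * sheetIdem s g d Y₁ k =
        (S : F) ^ (s.erase k).card * (sheetIdem s g d Y k - sheetIdem s g d Y₁ k) := by
      push_cast
      ring
    rw [this]
    exact hdiff.mul_left (O.pow_mem (hCO S.2) _)

end Sheet

section Main

variable {R : Type*} [CommRing R] [IsDomain R] [IsNoetherianRing R]
  [IsIntegrallyClosed (Polynomial R)] {F : Type*} [Field F] [Algebra R F] [CharZero F]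

/-- **GLUE-p, version B-p.**  `Y` an Artin–Schreier coordinate (`∏_{k ∈ s} (Y - g k) ≡ 0` modulo
`w O`, the `g k` with unit differences) having local integral models at every closed point of the
special fibre of both charts: then `Y ≡ g k mod w O` for one `k`. -/
theorem as_trivial_of_local
    (hinjR : Function.Injective (algebraMap R F))
    (hRF : ∀ y : F, IsIntegral R y → y ∈ Set.range (algebraMap R F))
    {x : F} (hx : Transcendental R x) [FiniteDimensional (baseField R x) F]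
    (w : R) (hw : Prime w)
    (O : Subalgebra R F)
    (hfin : chart R ({x} : Set F) ≤ O) (hinf : chart R ({x⁻¹} : Set F) ≤ O)
    (qep_fin : ∀ b ∈ chart R ({x} : Set F), InW O w b →
      ∃ t ∈ chart R ({x} : Set F), b = algebraMap R F w * t)
    (qep_inf : ∀ b ∈ chart R ({x⁻¹} : Set F), InW O w b →
      ∃ t ∈ chart R ({x⁻¹} : Set F), b = algebraMap R F w * t)
    (qep_mid : ∀ b ∈ chart R ({x, x⁻¹} : Set F), InW O w b →
      ∃ t ∈ chart R ({x, x⁻¹} : Set F), b = algebraMap R F w * t)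
    (h1 : ¬ InW O w 1)
    (s : Finset ℕ) (hs : s.Nonempty) (g : ℕ → R) (d : ℕ → ℕ → R)
    (hd : ∀ k ∈ s, ∀ l ∈ s, k ≠ l → (g k - g l) * d k l = 1)
    {Y : F} (hY : Y ∈ O) (hA : InW O w (∏ l ∈ s, (Y - algebraMap R F (g l))))
    (hloc_fin : ∀ 𝔫 : Ideal (chart R ({x} : Set F)), 𝔫.IsMaximal →
      algebraMap R (chart R ({x} : Set F)) w ∈ 𝔫 →
      ∃ S : chart R ({x} : Set F), S ∉ 𝔫 ∧
        ∃ Y₁ : F, InW O w (Y - Y₁) ∧ (S : F) * Y₁ ∈ chart R ({x} : Set F))
    (hloc_inf : ∀ 𝔫 : Ideal (chart R ({x⁻¹} : Set F)), 𝔫.IsMaximal →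
      algebraMap R (chart R ({x⁻¹} : Set F)) w ∈ 𝔫 →
      ∃ S : chart R ({x⁻¹} : Set F), S ∉ 𝔫 ∧
        ∃ Y₁ : F, InW O w (Y - Y₁) ∧ (S : F) * Y₁ ∈ chart R ({x⁻¹} : Set F)) :
    ∃ k ∈ s, InW O w (Y - algebraMap R F (g k)) := by
  by_contra hcon
  have hall : ∀ k ∈ s, InW O w (sheetIdem s g d Y k) := by
    intro k hk
    have h := generic_idempotent_trivial hinjR hRF hx w hw O hfin hinf qep_fin qep_inf qep_mid
      (sheetIdem_mem s g d hY k) (inW_sheetIdem_sq_sub s g d hd hY hA hk)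
      (fun 𝔫 h𝔫 hw𝔫 => by
        obtain ⟨S, hS, Y₁, h₁, hSY⟩ := hloc_fin 𝔫 h𝔫 hw𝔫
        have := h𝔫.isPrime
        exact sheetIdem_locally_regular hfin s g d hY k 𝔫 hS h₁ hSY)
      (fun 𝔫 h𝔫 hw𝔫 => by
        obtain ⟨S, hS, Y₁, h₁, hSY⟩ := hloc_inf 𝔫 h𝔫 hw𝔫
        have := h𝔫.isPrime
        exact sheetIdem_locally_regular hinf s g d hY k 𝔫 hS h₁ hSY)
    rcases h with h | h
    · exact h
    · exact absurd ⟨k, hk, inW_sub_of_inW_one_sub_sheetIdem s g d hY hA hk h⟩ hcon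
  have := InW.sum s _ hall
  rw [sum_sheetIdem s hs g d hd Y] at this
  exact h1 this

end Main

end Fermat.Agent.Ribet.H552
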