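import Fermat.Agent.Ribet.H495.AlgPAsm
import Fermat.Agent.Ribet.H913.WPSmooth
import Fermat.Agent.Ribet.H224.WPNode
import Fermat.Agent.Ribet.H552.GlueP

/-!
# RIBET wall-p, piece W-ALGP (I5): `AlgPStatement`, UNCONDITIONAL (helper552)

`algP : H495.AlgP.AlgPStatement` — the frozen interface of `Ribet/H495/AlgPSpec.lean`
(sub-architect helper495), from the assembly `H495.AlgP.algP_of_leaves` and the three leaves
* WPS   `H913.wpSmoothLeaf` (helper913),
* WPN   `H224.wpNodeLeaf`   (helper224),
* GLUE-p `H552.glueP`       (helper552).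
-/

set_option autoImplicit false

namespace Fermat.Agent.Ribet.H552

/-- **ALG-p** (wild ALG): inertia acts on the deeply split Kummer classes of order `p` through the
cyclotomic exponent. -/
theorem algP : Fermat.Agent.Ribet.H495.AlgP.AlgPStatement :=
  Fermat.Agent.Ribet.H495.AlgP.algP_of_leaves Fermat.Agent.Ribet.H913.wpSmoothLeaf
    Fermat.Agent.Ribet.H224.wpNodeLeaf glueP

end Fermat.Agent.Ribet.H552
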