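import Fermat.Agent.Ribet.H704.WildSpec
import Fermat.Agent.A2.Alg.H754.PuritySmooth

/-!
# RIBET row 38, WALL-p, (S4) CORE-OUT, WILD half, leaf **SMOOTH-PURE** (helper552)

`smoothPure : H704.CoreOut.SmoothPureStatement`, VERBATIM (`Ribet/H704/WildSpec.lean`).

At a closed point `n` of the special fibre of a semistable chart `B` lying on exactly ONE
component `p`, every `G ∈ Fˣ` which is horizontally `m`-divisible on `Spec B[1/w]`
(`I6.HorDivVal`) is pure at `n`: `G · w ^ a · d ^ m ∈ (B_n)ˣ`.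

* `pure_smooth_loc552`: the abstract purity theorem `A2.Alg.H754.pure_smooth_abs` with the
  divisibility hypothesis only at the height-one primes THROUGH `n` (`DivAt552`); same proof
  (`B_n` is a UFD).
* chart instantiation: `G = υ · w ^ j` with `υ` a unit at `p` (`exists_zpow_locU`), `υ` is
  `m`-divisible at the horizontal primes through `n` (`HorDivVal` at `V = B_𝔭`), and `p` is the
  only vertical prime through `n`.

No coprimality of `m` with the residue characteristic is used.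
-/

set_option autoImplicit false
set_option linter.style.haveILetI false
set_option linter.unusedSectionVars false
set_option linter.unusedVariables false

noncomputable section

namespace Fermat.Agent.Ribet.H552.SmoothPure

open IsLocalRing
open Fermat.Agent.A2 Fermat.Agent.A2.Alg
open Fermat.Agent.A2.Alg.H754 (LocU exists_mul_eq_of_mem height_eq_one_of_inf exists_zpow_locU
  locU_of_frac_of_inv_frac locU_iff_of_valuationSubring chart_package isDedekindDomain_component
  algebraMap_chart_injective)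
open Fermat.Agent.S18.H754 (LocallyPow)

section Abs

variable {B F : Type*} [CommRing B] [IsDomain B] [Field F] [Algebra B F]

/-- `m ∣ ord_𝔭 (u)` at every height-one prime `𝔭` of `B` contained in `n`, elementwise. -/
def DivAt552 (n : Ideal B) (m : ℕ) (u : F) : Prop :=
  ∀ 𝔭 : Ideal B, 𝔭.IsPrime → 𝔭.height = 1 → 𝔭 ≤ n →
    ∃ t : F, ∃ a s : B, a ∉ 𝔭 ∧ s ∉ 𝔭 ∧ u * t ^ m * algebraMap B F s = algebraMap B F a

/-- Local form of `S18.H754.locallyPow_of_divisibleDivisor`. -/
lemma locallyPow_of_divAt552 (n : Ideal B) [hn : n.IsPrime] (A : Type*) [CommRing A]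
    [Algebra B A] [IsLocalization.AtPrime A n] [IsDomain A] [IsNoetherianRing A]
    [Algebra A F] [IsScalarTower B A F] {m : ℕ} {u : F}
    (h : DivAt552 n m u) (π : A) (hπ : Prime π) : LocallyPow A m u π := by
  haveI hP : (Ideal.span {π}).IsPrime := (Ideal.span_singleton_prime hπ.ne_zero).2 hπ
  have hht : (Ideal.span {π} : Ideal A).height = 1 := by
    apply le_antisymm
    · refine Ideal.height_le_one_of_isPrincipal_of_mem_minimalPrimes (Ideal.span {π}) _ ?_
      rw [Ideal.minimalPrimes_eq_subsingleton_self]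
      exact Set.mem_singleton _
    · rw [Order.one_le_iff_pos, pos_iff_ne_zero]
      intro h0
      rw [Ideal.height_eq_zero_iff, IsDomain.minimalPrimes_eq_singleton_bot] at h0
      rw [Set.mem_singleton_iff, Ideal.span_singleton_eq_bot] at h0
      exact hπ.ne_zero h0
  have hht' : ((Ideal.span {π} : Ideal A).under B).height = 1 := by
    rw [IsLocalization.height_under n.primeCompl, hht]
  have hle : (Ideal.span {π} : Ideal A).under B ≤ n := by
    intro b hb
    by_contra hbn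
    have hu : IsUnit (algebraMap B A b) :=
      IsLocalization.map_units A (⟨b, hbn⟩ : n.primeCompl)
    rw [Ideal.under_def, Ideal.mem_comap] at hb
    exact hP.ne_top (Ideal.eq_top_of_isUnit_mem _ hb hu)
  obtain ⟨t, a, s, ha, hs, hu⟩ := h ((Ideal.span {π} : Ideal A).under B) inferInstance hht' hle
  refine ⟨t, algebraMap B A a, algebraMap B A s, ?_, ?_, ?_⟩
  · intro hd
    apply ha
    rw [Ideal.under_def, Ideal.mem_comap, Ideal.mem_span_singleton]
    exact hd
  · intro hd
    apply hs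
    rw [Ideal.under_def, Ideal.mem_comap, Ideal.mem_span_singleton]
    exact hd
  · rw [← IsScalarTower.algebraMap_apply, ← IsScalarTower.algebraMap_apply]
    exact hu

variable [IsFractionRing B F] [IsNoetherianRing B] [IsIntegrallyClosed B]

/-- **Purity at a smooth point, abstract local form**: `A2.Alg.H754.pure_smooth_abs` with the
divisibility of the divisor only at the height-one primes through `n`. -/
theorem pure_smooth_loc552 (ϖ : B) (hϖ : ϖ ≠ 0) (p p' : Ideal B) [hp : p.IsPrime]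
    [hp' : p'.IsPrime] (hinf : p ⊓ p' = Ideal.span {ϖ})
    (hD : IsDedekindDomain (B ⧸ p))
    (n : Ideal B) (hn : n.IsMaximal) (hpn : p ≤ n) (hp'n : ¬ p' ≤ n)
    (m : ℕ) (hm : 0 < m) (u : F) (hu : u ≠ 0) (hdiv : DivAt552 n m u) :
    ∃ d : F, d ≠ 0 ∧ LocU n (u * d ^ m) := by
  classical
  haveI hnp : n.IsPrime := hn.isPrime
  have h1n : (1 : B) ∉ n := fun h1 => hnp.ne_top ((Ideal.eq_top_iff_one _).2 h1)
  have hinj : Function.Injective (algebraMap B F) := IsFractionRing.injective B F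
  obtain ⟨g₀, hg₀p', hg₀n⟩ := SetLike.not_le_iff_exists.1 hp'n
  have hϖpp : ϖ ∈ p ⊓ p' := hinf ▸ Ideal.mem_span_singleton_self ϖ
  have hϖp : ϖ ∈ p := hϖpp.1
  have hϖn : ϖ ∈ n := hpn hϖp
  -- local generator of `n` modulo `p`
  obtain ⟨t, htn, hreg⟩ : ∃ t ∈ n, ∀ a ∈ n, ∃ s : B, s ∉ n ∧ s * a ∈ Ideal.span {ϖ, t} := by
    haveI := hD
    have hsurj : Function.Surjective (Ideal.Quotient.mk p) := Ideal.Quotient.mk_surjective
    have hM : (n.map (Ideal.Quotient.mk p)).IsMaximal := by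
      haveI := hn
      exact Ideal.IsMaximal.map_of_surjective_of_ker_le hsurj (by rw [Ideal.mk_ker]; exact hpn)
    obtain ⟨tb, htb, sb, hsb, hall⟩ :=
      Fermat.Agent.S18.B12.H84.exists_local_generator (n.map (Ideal.Quotient.mk p)) hM
    obtain ⟨t, rfl⟩ := hsurj tb
    obtain ⟨s, rfl⟩ := hsurj sb
    have hmem : ∀ b : B, Ideal.Quotient.mk p b ∈ n.map (Ideal.Quotient.mk p) ↔ b ∈ n := by
      intro b
      rw [← Ideal.mem_comap, Ideal.comap_map_of_surjective _ hsurj, ← RingHom.ker_eq_comap_bot,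
        Ideal.mk_ker, sup_eq_left.2 hpn]
    have hsn : s ∉ n := fun h => hsb ((hmem s).2 h)
    refine ⟨t, (hmem t).1 htb, fun a ha => ⟨g₀ * s, ?_, ?_⟩⟩
    · exact fun h => (hnp.mem_or_mem h).elim hg₀n hsn
    · have h1 := hall _ ((hmem a).2 ha)
      rw [Ideal.mem_span_singleton'] at h1
      obtain ⟨cb, hcb⟩ := h1
      obtain ⟨c, rfl⟩ := hsurj cb
      have hd : s * a - c * t ∈ p := by
        rw [← Ideal.Quotient.eq, map_mul, map_mul]
        exact hcb.symm
      obtain ⟨e, he⟩ := exists_mul_eq_of_mem ϖ p p' hinf hg₀p' hd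
      rw [Ideal.mem_span_pair]
      refine ⟨e, g₀ * c, ?_⟩
      linear_combination (-1 : B) * he
  -- the local ring `A = B_n ⊆ F`
  let A : Subalgebra B F :=
    Localization.subalgebra.ofField F n.primeCompl n.primeCompl_le_nonZeroDivisors
  haveI : IsLocalization.AtPrime A n := (inferInstance : IsLocalization n.primeCompl A)
  haveI : IsLocalRing A := IsLocalization.AtPrime.isLocalRing A n
  haveI : IsNoetherianRing A := IsLocalization.isNoetherianRing n.primeCompl A inferInstance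
  have hmapp : Ideal.span {algebraMap B A ϖ} = Ideal.map (algebraMap B A) p := by
    apply le_antisymm
    · rw [Ideal.span_singleton_le_iff_mem]
      exact Ideal.mem_map_of_mem _ hϖp
    · rw [Ideal.map_le_iff_le_comap]
      intro b hb
      obtain ⟨c, hc⟩ := exists_mul_eq_of_mem ϖ p p' hinf hg₀p' hb
      rw [Ideal.mem_comap]
      have hu : IsUnit (algebraMap B A g₀) :=
        IsLocalization.map_units A (⟨g₀, hg₀n⟩ : n.primeCompl)
      have h2 : algebraMap B A g₀ * algebraMap B A b ∈ Ideal.span {algebraMap B A ϖ} := by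
        rw [← map_mul, hc, map_mul]
        exact Ideal.mul_mem_right _ _ (Ideal.mem_span_singleton_self _)
      exact (Ideal.unit_mul_mem_iff_mem _ hu).1 h2
  have hprime : Prime (algebraMap B A ϖ) := by
    have h0 : algebraMap B A ϖ ≠ 0 := fun h =>
      hϖ (IsLocalization.injective A n.primeCompl_le_nonZeroDivisors (by rw [h, map_zero]))
    rw [← Ideal.span_singleton_prime h0, hmapp]
    refine IsLocalization.isPrime_of_isPrime_disjoint n.primeCompl A p hp ?_
    rw [Set.disjoint_left]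
    intro x hx hx'
    exact hx (hpn hx')
  have hmax : maximalIdeal A = Ideal.span {algebraMap B A ϖ, algebraMap B A t} :=
    Fermat.Agent.S18.H754.maximalIdeal_loc_eq_span_pair n A hϖn htn hreg
  haveI : UniqueFactorizationMonoid A :=
    Fermat.Agent.S18.H754.ufd_of_regular_pair _ _ hprime hmax
  obtain ⟨s, hs0, ε, hε⟩ := Fermat.Agent.S18.H754.exists_unit_mul_pow (R := A) m hm u hu
    (fun π hπ => locallyPow_of_divAt552 n A hdiv π hπ)
  -- `u * s ^ m` is a unit at `n`
  refine ⟨s, hs0, ?_⟩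
  have hne : u * s ^ m ≠ 0 := mul_ne_zero hu (pow_ne_zero _ hs0)
  refine locU_of_frac_of_inv_frac n hne ?_ ?_
  · rw [hε]
    exact (Fermat.Agent.S18.H438.mem_ofField_primeCompl_iff n _).1 (ε : A).2
  · have e : (u * s ^ m)⁻¹ = algebraMap A F ((ε⁻¹ : Aˣ) : A) := by
      rw [hε]
      apply inv_eq_of_mul_eq_one_left
      rw [← map_mul, Units.inv_mul, map_one]
    rw [e]
    exact (Fermat.Agent.S18.H438.mem_ofField_primeCompl_iff n _).1 ((ε⁻¹ : Aˣ) : A).2

end Abs

section Chart

open Fermat.Agent.Ribet.H704 Fermat.Agent.Ribet.H704.CoreOut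

variable {R E F : Type*} [CommRing R] [IsDomain R] [IsDiscreteValuationRing R]
  [Field E] [CharZero E] [Algebra R E] [IsFractionRing R E]
  [Field F] [Algebra E F] [Algebra R F] [IsScalarTower R E F]

/-- One-sided form of SMOOTH-PURE: `n` lies on `p` and not on `p'`. -/
theorem smoothPure_aux552 (w : R) (x : F) (B : Subalgebra R F) (hB : ChartCtx E w x B)
    (p p' : Ideal B) (hp : p.IsPrime) (hp' : p'.IsPrime)
    (hinf : p ⊓ p' = Ideal.span {algebraMap R B w}) (h12 : ¬ p ≤ p') (h21 : ¬ p' ≤ p)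
    (hnorm : IsIntegrallyClosed (B ⧸ p))
    (m : ℕ) (hm : m ≠ 0) (G : F) (hG : G ≠ 0)
    (hdiv : I6.HorDivVal (R := B) F (algebraMap R B w) m G)
    (n : Ideal B) (hn : n.IsMaximal) (hpn : p ≤ n) (hp'n : ¬ p' ≤ n) :
    PureAtChart w B m G n := by
  obtain ⟨hN, hIC, hFr⟩ := chart_package w x B hB
  haveI := hN
  haveI := hIC
  haveI := hFr
  haveI := hp
  haveI := hp'
  haveI hnp : n.IsPrime := hn.isPrime
  set ϖ : B := algebraMap R B w with hϖdef
  have hwB0 : ϖ ≠ 0 := fun h0 =>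
    hB.hw.ne_zero (algebraMap_chart_injective (E := E) B (by rw [map_zero]; exact h0))
  have hinjF : Function.Injective (algebraMap B F) := IsFractionRing.injective B F
  have hϖF : algebraMap B F ϖ ≠ 0 := fun h0 => hwB0 (hinjF (by rw [h0, map_zero]))
  have hϖpp : ϖ ∈ p ⊓ p' := hinf ▸ Ideal.mem_span_singleton_self ϖ
  have hwp : ϖ ∈ p := hϖpp.1
  have hD : IsDedekindDomain (B ⧸ p) := isDedekindDomain_component w x B hB p hwp hnorm
  have hhtp : p.height = 1 := height_eq_one_of_inf ϖ hwB0 p p' hinf h21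
  obtain ⟨g₁, hg₁p', hg₁p⟩ := SetLike.not_le_iff_exists.1 h21
  have hgen : ∀ a ∈ p, ∃ g : B, g ∉ p ∧ ∃ c : B, g * a = ϖ * c := by
    intro a ha
    exact ⟨g₁, hg₁p, exists_mul_eq_of_mem ϖ p p' hinf hg₁p' ha⟩
  obtain ⟨j, υ, hυ, hGυ⟩ := exists_zpow_locU p hhtp ϖ hwB0 hwp hgen hG
  have hυ0 : υ ≠ 0 := hυ.ne_zero
  -- divisibility at the height-one primes through `n`
  have hDiv : DivAt552 n m υ := by
    intro 𝔭 h𝔭 hht h𝔭n
    haveI := h𝔭
    by_cases hw𝔭 : ϖ ∈ 𝔭
    · -- vertical: `𝔭 = p`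
      have hle : p * p' ≤ 𝔭 := by
        refine le_trans Ideal.mul_le_inf ?_
        rw [hinf, Ideal.span_singleton_le_iff_mem]
        exact hw𝔭
      have hp𝔭 : p ≤ 𝔭 := by
        rcases (Ideal.IsPrime.mul_le h𝔭).1 hle with h | h
        · exact h
        · exact absurd (le_trans h h𝔭n) hp'n
      haveI : p.FiniteHeight := Ideal.finiteHeight_of_isNoetherianRing p
      have hpeq : p = 𝔭 := by
        refine Ideal.eq_of_le_of_height_le p hp𝔭 ?_
        rw [hht, hhtp]
      subst hpeq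
      obtain ⟨a, b, ha, hb, hab⟩ := hυ
      exact ⟨1, a, b, ha, hb, by rw [one_pow, mul_one]; exact hab⟩
    · -- horizontal: `B_𝔭` is a discrete valuation ring containing `B[1/w]`
      obtain ⟨W, hdvr, hW⟩ := Fermat.Agent.S18.H438.exists_dvr_of_height_one (F := F) 𝔭 hht
      have h1𝔭 : (1 : B) ∉ 𝔭 := fun h1 => h𝔭.ne_top ((Ideal.eq_top_iff_one _).2 h1)
      have hBW : ∀ r : B, algebraMap B F r ∈ W := fun r =>
        (hW _).2 ⟨r, 1, h1𝔭, by rw [map_one, mul_one]⟩
      have hϖW : (algebraMap B F ϖ)⁻¹ ∈ W :=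
        (hW _).2 ⟨1, ϖ, hw𝔭, by rw [inv_mul_cancel₀ hϖF, map_one]⟩
      obtain ⟨g, u₀, hu₀, hu₀', hu⟩ := hdiv W hdvr hBW hϖW
      have hu₀0 : u₀ ≠ 0 := by
        rintro rfl
        rw [zero_mul] at hu
        exact hG hu
      have hg0 : g ≠ 0 := by
        rintro rfl
        rw [zero_pow hm, mul_zero] at hu
        exact hG hu
      have hU₀ : LocU 𝔭 u₀ := (locU_iff_of_valuationSubring 𝔭 W hW hu₀0).2 ⟨hu₀, hu₀'⟩
      have hϖU : LocU 𝔭 (algebraMap B F ϖ) := LocU.of_notMem hw𝔭 h1𝔭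
      have hU : LocU 𝔭 (u₀ * (algebraMap B F ϖ) ^ (-j)) := hU₀.mul (hϖU.zpow (-j))
      obtain ⟨a, s, ha, hs, has⟩ := hU
      refine ⟨g⁻¹, a, s, ha, hs, ?_⟩
      rw [← has]
      have e1 : υ = G * (algebraMap B F ϖ) ^ (-j) := by
        rw [hGυ, mul_assoc, ← zpow_add₀ hϖF, add_neg_cancel, zpow_zero, mul_one]
      rw [e1, hu, inv_pow]
      have hgm : g ^ m ≠ 0 := pow_ne_zero _ hg0
      field_simp
  obtain ⟨d, hd0, hd⟩ := pure_smooth_loc552 ϖ hwB0 p p' hinf hD n hn hpn hp'n m
    (Nat.pos_of_ne_zero hm) υ hυ0 hDiv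
  refine ⟨d, -j, hd0, ?_⟩
  have e1 : G * (algebraMap R F w) ^ (-j) = υ := by
    have e0 : algebraMap R F w = algebraMap B F ϖ := rfl
    rw [e0, hGυ, mul_assoc, ← zpow_add₀ hϖF, add_neg_cancel, zpow_zero, mul_one]
  rw [e1]
  exact hd

end Chart

open Fermat.Agent.Ribet.H704 Fermat.Agent.Ribet.H704.CoreOut in
/-- **SMOOTH-PURE**, VERBATIM (`H704.CoreOut.SmoothPureStatement`). -/
theorem smoothPure : SmoothPureStatement := by
  intro R E F _ _ _ _ _ _ _ _ _ _ _ w x B c hB m hm G hG hdiv n hn hwn h1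
  have hle : c.p₁ * c.p₂ ≤ n := by
    refine le_trans Ideal.mul_le_inf ?_
    rw [c.inf_eq, Ideal.span_singleton_le_iff_mem]
    exact hwn
  rcases (Ideal.IsPrime.mul_le hn.isPrime).1 hle with h | h
  · exact smoothPure_aux552 w x B hB c.p₁ c.p₂ c.prime₁ c.prime₂ c.inf_eq c.not_le₁₂ c.not_le₂₁
      c.normal₁ m hm G hG hdiv n hn h (fun h2 => h1 ⟨h, h2⟩)
  · exact smoothPure_aux552 w x B hB c.p₂ c.p₁ c.prime₂ c.prime₁
      (by rw [inf_comm]; exact c.inf_eq) c.not_le₂₁ c.not_le₁₂ c.normal₂ m hm G hG hdiv n hn h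
      (fun h2 => h1 ⟨h2, h⟩)

end Fermat.Agent.Ribet.H552.SmoothPure

end
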